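import Fermat.Agent.S59.H121.PeuLam2
import Fermat.Agent.Lib.Cheb.H643.FrobAt
import Fermat.Agent.S56.H606.Gen

/-!
# Row S59, PEU-FLAT (helper121): descent from the inertia group to the decomposition group

`descD`: an `I_P`-invariant element `h ∈ Λ_P` of finite level is an `O_P`-linear combination of
`D_P`-invariant elements of `Λ_P` of finite level:
`h = ∑_j c_j H_j`, `H_j = ∑_{i < n} φ^i ⋆ (z^j h)` (leaf LAG; `φ` a Frobenius element).
-/

set_option autoImplicit false
set_option linter.unusedSectionVars false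
set_option linter.unusedVariables false
set_option linter.style.haveILetI false

open scoped Classical Pointwise

noncomputable section

namespace Fermat.Agent.S59.H121

open Fermat.Agent.S19 (Qb GalQ Rl Zb)

variable {M : Type} [AddCommGroup M]

/-- a normal subfield is stable under all automorphisms -/
theorem apply_mem_of_normal121 (F : IntermediateField ℚ Qb) [Normal ℚ F] (σ : GalQ) {x : Qb}
    (hx : x ∈ F) : σ x ∈ F := by
  have h := AlgEquiv.restrictNormal_commutes σ F ⟨x, hx⟩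
  have h2 : σ x = ((σ.restrictNormal F ⟨x, hx⟩ : F) : Qb) := h.symm
  rw [h2]
  exact (σ.restrictNormal F ⟨x, hx⟩).2

/-- some positive power of `φ` fixes a finite normal subfield pointwise -/
theorem exists_pow_fixes121 (F : IntermediateField ℚ Qb) [FiniteDimensional ℚ F] [Normal ℚ F]
    (φ : GalQ) : ∃ n : ℕ, 0 < n ∧ ∀ x ∈ F, (φ ^ n) x = x := by
  set r : F ≃ₐ[ℚ] F := AlgEquiv.restrictNormalHom F φ with hr
  refine ⟨orderOf r, orderOf_pos r, fun x hx => ?_⟩
  have h1 : AlgEquiv.restrictNormalHom F (φ ^ orderOf r) = 1 := by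
    rw [map_pow, ← hr, pow_orderOf_eq_one]
  have h2 := AlgEquiv.restrictNormal_commutes (φ ^ orderOf r) F ⟨x, hx⟩
  have h3 : (φ ^ orderOf r).restrictNormal F = 1 := h1
  rw [h3] at h2
  exact h2.symm

variable (act : GalQ →* AddMonoid.End M)

/-- conjugates of a function of normal level have the same level -/
theorem HasLevel.star121 {F : IntermediateField ℚ Qb} [Normal ℚ F] {w : M → Qb}
    (h : HasLevel act w F) (σ : GalQ) : HasLevel act (star act σ w) F := by
  intro τ hτ
  rw [← star_mul]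
  have h1 : τ * σ = σ * (σ⁻¹ * τ * σ) := by group
  rw [h1, star_mul, h (σ⁻¹ * τ * σ)]
  intro x hx
  show σ⁻¹ (τ (σ x)) = x
  rw [hτ _ (apply_mem_of_normal121 F σ hx)]
  show (σ⁻¹ * σ) x = x
  rw [inv_mul_cancel]; rfl

theorem HasLevel.smul121 {F : IntermediateField ℚ Qb} {w : M → Qb} (h : HasLevel act w F)
    {a : Qb} (ha : a ∈ F) : HasLevel act (a • w) F := by
  intro τ hτ
  rw [star_smul, hτ a ha, h τ hτ]

theorem HasLevel.sum121 {ι : Type*} {F : IntermediateField ℚ Qb} (s : Finset ι)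
    {w : ι → M → Qb} (h : ∀ i ∈ s, HasLevel act (w i) F) : HasLevel act (∑ i ∈ s, w i) F := by
  intro τ hτ
  rw [star_sum]
  exact Finset.sum_congr rfl fun i hi => h i hi τ hτ

/-- sum over a period of a periodic sequence -/
theorem sum_range_shift121 {A : Type*} [AddCommGroup A] (g : ℕ → A) (n : ℕ)
    (hg : ∀ i, g (i + n) = g i) (m : ℕ) :
    ∑ i ∈ Finset.range n, g (m + i) = ∑ i ∈ Finset.range n, g i := by
  induction m with
  | zero => simp
  | succ m ih =>
    rw [← ih]
    have h1 := Finset.sum_range_succ (fun i => g (m + i)) n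
    have h2 := Finset.sum_range_succ' (fun i => g (m + i)) n
    have h3 : g (m + n) = g (m + 0) := by rw [add_zero]; exact hg m
    rw [h3] at h1
    have h4 := h2.symm.trans h1
    have h5 := add_right_cancel h4
    rw [← h5]
    apply Finset.sum_congr rfl
    intro i _
    congr 1
    omega

variable {act} {p : ℕ} {P : ValuationSubring Qb} {ζ : Qb} {L : AddSubgroup M}

/-- The action of `σ ∈ D_P` on the `φ`-orbit of an inertia-invariant function of normal level. -/
theorem exists_shift121 (hp : p.Prime) (hP : P.LiesOverPrime p) {φ : GalQ}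
    (hφ : P.IsFrobeniusAt φ p) {F : IntermediateField ℚ Qb} [FiniteDimensional ℚ F]
    [Normal ℚ F] {w : M → Qb} (hw : HasLevel act w F)
    (hI : ∀ γ ∈ P.inertiaSubgroupIn ℚ, star act γ w = w) {σ : GalQ}
    (hσ : σ ∈ P.decompositionSubgroup ℚ) :
    ∃ m : ℕ, ∀ i : ℕ, star act σ (star act (φ ^ i) w) = star act (φ ^ (m + i)) w := by
  obtain ⟨m, ι, hι, hσF⟩ :=
    Fermat.Agent.S56.H606.exists_frobenius_pow_mul_inertia hp hP F hφ hσ
  refine ⟨m, fun i => ?_⟩
  have hφD : φ ∈ P.decompositionSubgroup ℚ := hφ.mem_decompositionSubgroup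
  have hφi : (φ ^ i)⁻¹ ∈ P.decompositionSubgroup ℚ := Subgroup.inv_mem _ (pow_mem hφD i)
  have hι' : (φ ^ i)⁻¹ * ι * φ ^ i ∈ P.inertiaSubgroupIn ℚ := by
    have := conj_mem_inertia121 hφi hι
    rwa [inv_inv] at this
  rw [← star_mul]
  have hcong : ∀ x ∈ F, (σ * φ ^ i) x = (φ ^ (m + i) * ((φ ^ i)⁻¹ * ι * φ ^ i)) x := by
    intro x hx
    have h1 : (σ * φ ^ i) x = σ ((φ ^ i) x) := rfl
    rw [h1, hσF _ (apply_mem_of_normal121 F (φ ^ i) hx)]
    have h2 : φ ^ (m + i) * ((φ ^ i)⁻¹ * ι * φ ^ i) = φ ^ m * ι * φ ^ i := by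
      rw [pow_add]; group
    rw [h2]
    rfl
  rw [hw.star_congr act hcong, star_mul, hI _ hι']

/-- **Descent `I_P → D_P`.** -/
theorem descD (hLag : LagStatement) (hyp : PeuHyp p act P ζ L) (hp : p.Prime)
    (hP : P.LiesOverPrime p) (hζ : IsPrimitiveRoot ζ p) {h : M → Qb}
    (hI : ∀ γ ∈ P.inertiaSubgroupIn ℚ, star act γ h = h)
    (hlev : ∃ F : IntermediateField ℚ Qb, FiniteDimensional ℚ F ∧ HasLevel act h F)
    (hmem : h ∈ Lam p P ζ L) :
    h ∈ Submodule.span P {H : M → Qb |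
      (∀ σ ∈ P.decompositionSubgroup ℚ, star act σ H = H) ∧
      (∃ F : IntermediateField ℚ Qb, FiniteDimensional ℚ F ∧ HasLevel act H F) ∧
      H ∈ Lam p P ζ L} := by
  haveI : IsGalois ℚ Qb := Fermat.Agent.S55.Bridge.isGalois_Qbar
  haveI : Normal ℚ Qb := IsGalois.to_normal
  obtain ⟨φ, hφ⟩ := Fermat.Agent.Lib.Cheb.H643.exists_isFrobeniusAt p hp P hP
  have hφD : φ ∈ P.decompositionSubgroup ℚ := hφ.mem_decompositionSubgroup
  obtain ⟨F₀, hF₀, hlev₀⟩ := hlev
  haveI : FiniteDimensional ℚ F₀ := hF₀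
  -- the period
  let F₁ : IntermediateField ℚ Qb := IntermediateField.normalClosure ℚ F₀ Qb
  haveI : Normal ℚ F₁ := normalClosure.normal ℚ F₀ Qb
  haveI : FiniteDimensional ℚ F₁ := normalClosure.is_finiteDimensional ℚ F₀ Qb
  have hF₀₁ : F₀ ≤ F₁ := IntermediateField.le_normalClosure F₀
  obtain ⟨n, hn, hnfix⟩ := exists_pow_fixes121 F₁ φ
  have hperh : star act (φ ^ n) h = h := hlev₀ _ fun x hx => hnfix x (hF₀₁ hx)
  -- the Lagrange data
  obtain ⟨z, c, hzP, hzI, hzn, hcP, hlag⟩ := hLag p hp P hP φ hφ n hn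
  -- the level of `z ^ j • h`
  have hzint : IsIntegral ℚ z := Algebra.IsIntegral.isIntegral z
  haveI : FiniteDimensional ℚ (IntermediateField.adjoin ℚ {z}) :=
    IntermediateField.adjoin.finiteDimensional hzint
  haveI : FiniteDimensional ℚ ↥(F₀ ⊔ IntermediateField.adjoin ℚ {z}) :=
    IntermediateField.finiteDimensional_sup _ _
  let F₂ : IntermediateField ℚ Qb :=
    IntermediateField.normalClosure ℚ ↥(F₀ ⊔ IntermediateField.adjoin ℚ {z}) Qb
  haveI : Normal ℚ F₂ := normalClosure.normal ℚ _ Qb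
  haveI : FiniteDimensional ℚ F₂ := normalClosure.is_finiteDimensional ℚ _ Qb
  have hsup₂ : F₀ ⊔ IntermediateField.adjoin ℚ {z} ≤ F₂ := IntermediateField.le_normalClosure _
  have hF₀₂ : F₀ ≤ F₂ := le_sup_left.trans hsup₂
  have hz₂ : z ∈ F₂ :=
    hsup₂ (le_sup_right (a := F₀) (IntermediateField.mem_adjoin_simple_self ℚ z))
  -- the functions
  set w : ℕ → M → Qb := fun j => (z ^ j) • h with hw
  have hwlev : ∀ j, HasLevel act (w j) F₂ := fun j =>
    HasLevel.smul121 act (hlev₀.mono act hF₀₂) (pow_mem hz₂ j)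
  have hwI : ∀ j, ∀ γ ∈ P.inertiaSubgroupIn ℚ, star act γ (w j) = w j := by
    intro j γ hγ
    show star act γ ((z ^ j) • h) = (z ^ j) • h
    rw [star_smul, map_pow, hzI γ hγ, hI γ hγ]
  have hwper : ∀ j, star act (φ ^ n) (w j) = w j := by
    intro j
    show star act (φ ^ n) ((z ^ j) • h) = (z ^ j) • h
    rw [star_smul, map_pow, hzn, hperh]
  have hwmem : ∀ j, w j ∈ Lam p P ζ L := fun j => smul_mem_of_mem (pow_mem hzP j) hmem
  set H : ℕ → M → Qb := fun j => ∑ i ∈ Finset.range n, star act (φ ^ i) (w j) with hH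
  -- `H j` is in the target set
  have hHmem : ∀ j, H j ∈ {H : M → Qb |
      (∀ σ ∈ P.decompositionSubgroup ℚ, star act σ H = H) ∧
      (∃ F : IntermediateField ℚ Qb, FiniteDimensional ℚ F ∧ HasLevel act H F) ∧
      H ∈ Lam p P ζ L} := by
    intro j
    refine ⟨?_, ⟨F₂, inferInstance, ?_⟩, ?_⟩
    · intro σ hσ
      obtain ⟨m, hm⟩ := exists_shift121 hp hP hφ (hwlev j) (hwI j) hσ
      show star act σ (∑ i ∈ Finset.range n, star act (φ ^ i) (w j)) = _
      rw [star_sum]
      simp only [hm]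
      refine sum_range_shift121 (fun i => star act (φ ^ i) (w j)) n ?_ m
      intro i
      show star act (φ ^ (i + n)) (w j) = star act (φ ^ i) (w j)
      rw [pow_add, star_mul, hwper j]
    · exact HasLevel.sum121 act _ fun i _ => HasLevel.star121 act (hwlev j) _
    · exact Submodule.sum_mem _ fun i _ =>
        star_mem_Lam hyp hp hζ (pow_mem hφD i) (hwmem j)
  -- `h = ∑ c_j H_j`
  have hsum : h = ∑ j : Fin n, (c j) • H (j : ℕ) := by
    have h1 : ∀ j : Fin n, (c j) • H (j : ℕ) =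
        ∑ i : Fin n, (c j * ((φ ^ (i : ℕ)) z) ^ (j : ℕ)) • star act (φ ^ (i : ℕ)) h := by
      intro j
      show (c j) • (∑ i ∈ Finset.range n, star act (φ ^ i) ((z ^ (j : ℕ)) • h)) = _
      rw [← Fin.sum_univ_eq_sum_range (fun i => star act (φ ^ i) ((z ^ (j : ℕ)) • h)) n,
        Finset.smul_sum]
      refine Finset.sum_congr rfl fun i _ => ?_
      rw [star_smul, map_pow, smul_smul]
    simp only [h1]
    rw [Finset.sum_comm]
    have h2 : ∀ i : Fin n,
        ∑ j : Fin n, (c j * ((φ ^ (i : ℕ)) z) ^ (j : ℕ)) • star act (φ ^ (i : ℕ)) h =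
          (if (i : ℕ) = 0 then (1 : Qb) else 0) • star act (φ ^ (i : ℕ)) h := by
      intro i
      rw [← Finset.sum_smul, hlag i]
    simp only [h2]
    rw [Finset.sum_eq_single (⟨0, hn⟩ : Fin n)]
    · simp [star_one]
    · intro i _ hi
      have : (i : ℕ) ≠ 0 := fun h0 => hi (Fin.ext h0)
      rw [if_neg this, zero_smul]
    · intro h0
      exact absurd (Finset.mem_univ _) h0
  rw [hsum]
  refine Submodule.sum_mem _ fun j _ => ?_
  exact smul_mem_of_mem (hcP j) (Submodule.subset_span (hHmem j))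

end Fermat.Agent.S59.H121
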