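import Fermat.Agent.S59.H121.PeuDescD

/-!
# Row S59, PEU-FLAT (helper121): descent from the decomposition group to `G_ℚ`

`descG`: a `D_P`-invariant element `H ∈ Λ_P` of finite level is congruent modulo `𝔪_P Λ_P` to a
`G_ℚ`-equivariant element of `Λ_P`.

`H = ∑_j x_j b_j` with `b_j = Tr_{Gal(F/ℚ)} (α_j H)` equivariant and `x_j ∈ ℚ̄^{D_P}` (leaf DUAL
and averaging over the image of `D_P`); the `x_j` are approximated by rational numbers (leaf
DENS); `p ^ N b_j ∈ 𝔪_P Λ_P` for large `N` (leaves ARCH, ORTH).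
-/

set_option autoImplicit false
set_option linter.unusedSectionVars false
set_option linter.unusedVariables false
set_option linter.style.haveILetI false

open scoped Classical Pointwise

noncomputable section

namespace Fermat.Agent.S59.H121

open Fermat.Agent.S19 (Qb GalQ Rl Zb)

attribute [local instance] Fermat.Agent.S55.Bridge.isGalois_Qbar

variable {M : Type} [AddCommGroup M]

section Trace

variable (F : IntermediateField ℚ Qb) [FiniteDimensional ℚ F] [Normal ℚ F]

/-- a set-theoretic section of the restriction `G_ℚ → Gal(F/ℚ)` -/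
theorem res_surjective121 :
    Function.Surjective (AlgEquiv.restrictNormalHom F : GalQ →* (F ≃ₐ[ℚ] F)) :=
  AlgEquiv.restrictNormalHom_surjective Qb

def lift121 (γ : F ≃ₐ[ℚ] F) : GalQ :=
  Function.surjInv (res_surjective121 F) γ

theorem res_lift121 (γ : F ≃ₐ[ℚ] F) : AlgEquiv.restrictNormalHom F (lift121 F γ) = γ :=
  Function.surjInv_eq (res_surjective121 F) γ

theorem res_apply121 (σ : GalQ) (x : F) :
    ((AlgEquiv.restrictNormalHom F σ x : F) : Qb) = σ (x : Qb) :=
  AlgEquiv.restrictNormal_commutes σ F x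

theorem lift_apply121 (γ : F ≃ₐ[ℚ] F) (x : F) : lift121 F γ (x : Qb) = ((γ x : F) : Qb) := by
  rw [← res_apply121 F (lift121 F γ) x, res_lift121]

theorem eq_on_of_res_eq121 {σ τ : GalQ}
    (h : AlgEquiv.restrictNormalHom F σ = AlgEquiv.restrictNormalHom F τ) :
    ∀ x ∈ F, σ x = τ x := by
  intro x hx
  have h1 := res_apply121 F σ ⟨x, hx⟩
  have h2 := res_apply121 F τ ⟨x, hx⟩
  rw [h] at h1
  exact h1.symm.trans h2

variable (act : GalQ →* AddMonoid.End M)

/-- the trace of a function of level `F` -/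
def traceF121 (u : M → Qb) : M → Qb :=
  ∑ γ : F ≃ₐ[ℚ] F, star act (lift121 F γ) u

theorem isEqv_traceF121 {u : M → Qb} (hu : HasLevel act u F) : IsEqv act (traceF121 F act u) := by
  intro σ
  unfold traceF121
  rw [star_sum]
  have h1 : ∀ γ : F ≃ₐ[ℚ] F, star act σ (star act (lift121 F γ) u) =
      star act (lift121 F (AlgEquiv.restrictNormalHom F σ * γ)) u := by
    intro γ
    rw [← star_mul]
    apply hu.star_congr act
    apply eq_on_of_res_eq121 F
    rw [map_mul, res_lift121, res_lift121]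
  simp only [h1]
  exact Fintype.sum_equiv (Equiv.mulLeft (AlgEquiv.restrictNormalHom F σ)) _ _ (fun _ => rfl)

theorem traceF_smul121 (a : F) (H : M → Qb) :
    traceF121 F act ((a : Qb) • H) =
      ∑ γ : F ≃ₐ[ℚ] F, ((γ a : F) : Qb) • star act (lift121 F γ) H := by
  unfold traceF121
  refine Finset.sum_congr rfl fun γ _ => ?_
  rw [star_smul, lift_apply121]

end Trace

variable {act : GalQ →* AddMonoid.End M} {p : ℕ} {P : ValuationSubring Qb} {ζ : Qb}
  {L : AddSubgroup M}

/-- A function of finite level which is invariant under `D_P` is a combination of equivariant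
functions with `D_P`-invariant coefficients. -/
theorem exists_eqv_decomp121 (hDual : DualStatement) {H : M → Qb}
    (hD : ∀ σ ∈ P.decompositionSubgroup ℚ, star act σ H = H)
    (hlev : ∃ F : IntermediateField ℚ Qb, FiniteDimensional ℚ F ∧ HasLevel act H F) :
    ∃ (r : ℕ) (x : Fin r → Qb) (b : Fin r → M → Qb),
      (∀ j, ∀ σ ∈ P.decompositionSubgroup ℚ, σ (x j) = x j) ∧ (∀ j, IsEqv act (b j)) ∧
      H = ∑ j, x j • b j := by
  obtain ⟨F₀, hF₀, hlev₀⟩ := hlev
  haveI : FiniteDimensional ℚ F₀ := hF₀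
  let F : IntermediateField ℚ Qb := IntermediateField.normalClosure ℚ F₀ Qb
  haveI : Normal ℚ F := normalClosure.normal ℚ F₀ Qb
  haveI : FiniteDimensional ℚ F := normalClosure.is_finiteDimensional ℚ F₀ Qb
  haveI : IsGalois ℚ F := ⟨⟩
  have hF₀F : F₀ ≤ F := IntermediateField.le_normalClosure F₀
  have hlevF : HasLevel act H F := hlev₀.mono act hF₀F
  obtain ⟨r, α, β, hαβ⟩ := hDual F
  set b : Fin r → M → Qb := fun j => traceF121 F act ((α j : Qb) • H) with hb
  have hbE : ∀ j, IsEqv act (b j) := fun j =>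
    isEqv_traceF121 F act (HasLevel.smul121 act hlevF (α j).2)
  -- the basic identity
  have hbasic : ∑ j, ((β j : F) : Qb) • b j = H := by
    have h1 : ∀ j, ((β j : F) : Qb) • b j =
        ∑ γ : F ≃ₐ[ℚ] F, (((β j * γ (α j) : F) : F) : Qb) • star act (lift121 F γ) H := by
      intro j
      show ((β j : F) : Qb) • traceF121 F act ((α j : Qb) • H) = _
      rw [traceF_smul121, Finset.smul_sum]
      refine Finset.sum_congr rfl fun γ _ => ?_
      rw [smul_smul]
      push_cast
      rfl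
    simp only [h1]
    rw [Finset.sum_comm]
    have h2 : ∀ γ : F ≃ₐ[ℚ] F,
        ∑ j, (((β j * γ (α j) : F) : F) : Qb) • star act (lift121 F γ) H =
          (if γ = 1 then (1 : Qb) else 0) • star act (lift121 F γ) H := by
      intro γ
      rw [← Finset.sum_smul]
      congr 1
      have h3 : ((∑ j, β j * γ (α j) : F) : Qb) = ∑ j, ((β j * γ (α j) : F) : Qb) :=
        map_sum (algebraMap F Qb) _ _
      rw [← h3, hαβ γ]
      split_ifs
      · exact map_one (algebraMap F Qb)
      · exact map_zero (algebraMap F Qb)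
    simp only [h2]
    rw [Finset.sum_eq_single (1 : F ≃ₐ[ℚ] F)]
    · rw [if_pos rfl, one_smul]
      apply hlevF
      intro x hx
      have := lift_apply121 F 1 ⟨x, hx⟩
      simpa using this
    · intro γ _ hγ
      rw [if_neg hγ, zero_smul]
    · intro h0
      exact absurd (Finset.mem_univ _) h0
  -- averaging over the image of `D_P`
  let Dbar : Subgroup (F ≃ₐ[ℚ] F) :=
    (P.decompositionSubgroup ℚ).map (AlgEquiv.restrictNormalHom F)
  have hδ : ∀ δ : Dbar, ∑ j, (((δ : F ≃ₐ[ℚ] F) (β j) : F) : Qb) • b j = H := by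
    rintro ⟨δ, σ, hσ, rfl⟩
    have h1 := congrArg (star act σ) hbasic
    rw [star_sum, hD σ hσ] at h1
    rw [← h1]
    refine Finset.sum_congr rfl fun j _ => ?_
    rw [star_smul, hbE j σ, res_apply121]
  set nD : Qb := (Fintype.card Dbar : Qb) with hnD
  have hnD0 : nD ≠ 0 := by
    have : 0 < Fintype.card Dbar := Fintype.card_pos
    rw [hnD]
    exact_mod_cast this.ne'
  set x : Fin r → Qb := fun j => nD⁻¹ * ∑ δ : Dbar, (((δ : F ≃ₐ[ℚ] F) (β j) : F) : Qb) with hx
  refine ⟨r, x, b, ?_, hbE, ?_⟩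
  · intro j σ hσ
    show σ (nD⁻¹ * ∑ δ : Dbar, (((δ : F ≃ₐ[ℚ] F) (β j) : F) : Qb)) = _
    rw [map_mul, map_inv₀, map_natCast, map_sum]
    congr 1
    let σ' : Dbar := ⟨AlgEquiv.restrictNormalHom F σ, σ, hσ, rfl⟩
    have h1 : ∀ δ : Dbar, σ ((((δ : F ≃ₐ[ℚ] F) (β j) : F) : Qb)) =
        ((((σ' * δ : Dbar) : F ≃ₐ[ℚ] F) (β j) : F) : Qb) := by
      intro δ
      rw [← res_apply121 F σ]
      rfl
    simp only [h1]
    exact Fintype.sum_equiv (Equiv.mulLeft σ') _ _ (fun _ => rfl)
  · have h1 : ∑ j, x j • b j = nD⁻¹ • ∑ δ : Dbar,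
        ∑ j, (((δ : F ≃ₐ[ℚ] F) (β j) : F) : Qb) • b j := by
      rw [Finset.sum_comm, Finset.smul_sum]
      refine Finset.sum_congr rfl fun j _ => ?_
      show (nD⁻¹ * ∑ δ : Dbar, (((δ : F ≃ₐ[ℚ] F) (β j) : F) : Qb)) • b j = _
      rw [← Finset.sum_smul, smul_smul]
    rw [h1]
    simp only [hδ]
    rw [Finset.sum_const, Finset.card_univ, ← Nat.cast_smul_eq_nsmul Qb, smul_smul,
      inv_mul_cancel₀ hnD0, one_smul]

variable [Finite M]

/-- **Descent `D_P → G_ℚ`.** -/
theorem descG (hDual : DualStatement) (hDens : DensStatement) (hOrth : OrthStatement)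
    (hArch : ArchStatement) (hyp : PeuHyp p act P ζ L) [Fact p.Prime]
    (hP : P.LiesOverPrime p) (hζ : IsPrimitiveRoot ζ p) {H : M → Qb}
    (hD : ∀ σ ∈ P.decompositionSubgroup ℚ, star act σ H = H)
    (hlev : ∃ F : IntermediateField ℚ Qb, FiniteDimensional ℚ F ∧ HasLevel act H F)
    (hmem : H ∈ Lam p P ζ L) :
    ∃ f : M → Qb, IsEqv act f ∧ f ∈ Lam p P ζ L ∧
      f - H ∈ IsLocalRing.maximalIdeal P • Lam p P ζ L := by
  have hp : p.Prime := Fact.out
  obtain ⟨r, x, b, hxD, hbE, hH⟩ := exists_eqv_decomp121 hDual hD hlev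
  have hN : ∀ j, ∃ N : ℕ, ∀ N' : ℕ, N ≤ N' →
      ((p : Qb) ^ N') • b j ∈ IsLocalRing.maximalIdeal P • Lam p P ζ L :=
    fun j => exists_pow_smul_mem hOrth hArch hyp hP hζ (b j)
  choose N hNspec using hN
  have hq : ∀ j, ∃ q : ℚ, P.valuation (x j - (q : Qb)) ≤ P.valuation (p : Qb) ^ (N j) :=
    fun j => hDens p hp P hP (x j) (hxD j) (N j)
  choose q hqspec using hq
  have hp0 : (p : Qb) ≠ 0 := by exact_mod_cast hp.ne_zero
  have hdiff : ∑ j, (q j : Qb) • b j - H ∈ IsLocalRing.maximalIdeal P • Lam p P ζ L := by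
    have h1 : ∑ j, (q j : Qb) • b j - H =
        ∑ j, (((q j : Qb) - x j) / (p : Qb) ^ (N j)) • (((p : Qb) ^ (N j)) • b j) := by
      conv_lhs => rw [hH]
      rw [← Finset.sum_sub_distrib]
      refine Finset.sum_congr rfl fun j _ => ?_
      rw [smul_smul, div_mul_cancel₀ _ (pow_ne_zero _ hp0), sub_smul]
    rw [h1]
    refine Submodule.sum_mem _ fun j _ => ?_
    refine smul_mem_of_mem ?_ (hNspec j (N j) le_rfl)
    rw [← ValuationSubring.valuation_le_one_iff, map_div₀, map_pow]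
    have h2 : P.valuation ((q j : Qb) - x j) = P.valuation (x j - (q j : Qb)) := by
      rw [← Valuation.map_neg, neg_sub]
    rw [h2]
    have h3 : P.valuation (p : Qb) ^ (N j) ≠ 0 := by
      rw [← map_pow]
      exact (Valuation.ne_zero_iff _).mpr (pow_ne_zero _ hp0)
    exact (div_le_one₀ (zero_lt_iff.mpr h3)).mpr (hqspec j)
  refine ⟨∑ j, (q j : Qb) • b j, ?_, ?_, hdiff⟩
  · intro σ
    rw [star_sum]
    refine Finset.sum_congr rfl fun j _ => ?_
    rw [star_smul, hbE j σ]
    congr 1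
    exact σ.commutes (q j)
  · have h1 : ∑ j, (q j : Qb) • b j = (∑ j, (q j : Qb) • b j - H) + H := by abel
    rw [h1]
    exact Submodule.add_mem _ (Submodule.smul_le_right hdiff) hmem

end Fermat.Agent.S59.H121
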