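import Fermat.Agent.S59.H121.PeuOrder
import Fermat.Agent.S59.H659.FlatClosed

/-!
# Row S59, PEU-FLAT (helper121): glue

`peuFlat_of_leaves` : the seven leaves of `PeuSpec.lean` imply
`Fermat.Agent.S59.H649.PeuFlatStatement` (ordinary + cyclotomic determinant + peu ramifié at one
place over `p` ⟹ flat at `p`).
-/

set_option autoImplicit false
set_option linter.unusedSectionVars false
set_option linter.unusedVariables false
set_option linter.style.haveILetI false

open scoped Classical Pointwise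

noncomputable section

namespace Fermat.Agent.S59.H121

open Fermat.Agent.S19 (Qb GalQ Rl Zb coordFunctions OrderDatum HopfModel)

variable {k : Type} [Field k]

/-- the Galois action of a residual representation, as additive endomorphisms -/
def actOf (ρbar : ResidualGaloisRep k) : GalQ →* AddMonoid.End ρbar.V where
  toFun σ := (ρbar.ρ σ).toAddMonoidHom
  map_one' := by
    rw [map_one]
    rfl
  map_mul' σ τ := by
    rw [map_mul]
    rfl

theorem actOf_apply (ρbar : ResidualGaloisRep k) (σ : GalQ) (v : ρbar.V) :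
    actOf ρbar σ v = ρbar.ρ σ v := rfl

/-- on the ordinary line inertia acts through the cyclotomic character -/
theorem ordLine_cyc {p : ℕ} (hp : p.Prime) (ρ : GaloisRepAdic k)
    (hdet : ρ.DetIsCyclotomic p)
    {P : ValuationSubring Qb} {L : Submodule k ρ.V}
    (hline : Fermat.Agent.S59.H649.IsOrdLineAt ρ P L)
    {ζ : Qb} (hζ : IsPrimitiveRoot ζ p) {σ : GalQ} (hσ : σ ∈ P.inertiaSubgroupIn ℚ) {a : ℕ}
    (ha : σ ζ = ζ ^ a) {l : ρ.V} (hl : l ∈ L) : ρ.ρ σ l = a • l := by
  haveI : NeZero p := ⟨hp.ne_zero⟩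
  obtain ⟨b, hb⟩ := hline.basis
  have hσD := inertia_le_decomp121 hσ
  have hb0 : b 0 ∈ L := by
    rw [hb]; exact Submodule.mem_span_singleton_self _
  have h0 : ρ.ρ σ (b 0) ∈ L := hline.stable σ hσD _ hb0
  have h1 : ρ.ρ σ (b 1) - b 1 ∈ L := hline.inertia σ hσ (b 1)
  rw [hb, Submodule.mem_span_singleton] at h0 h1
  obtain ⟨x, hx⟩ := h0
  obtain ⟨y, hy⟩ := h1
  have hy' : ρ.ρ σ (b 1) = y • b 0 + b 1 := by rw [hy]; abel
  -- the determinant
  have hdetx : LinearMap.det (ρ.ρ σ) = x := by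
    rw [← LinearMap.det_toMatrix b, Matrix.det_fin_two]
    simp only [LinearMap.toMatrix_apply, ← hx, hy', map_smul, map_add,
      Module.Basis.repr_self, Finsupp.smul_apply, Finsupp.add_apply, Finsupp.single_apply]
    simp
  -- the determinant is cyclotomic
  have hpk : ((p : ℕ) : k) = 0 := by
    have h := hdet.1
    rw [IsLocalRing.maximalIdeal_eq_bot, Ideal.mem_bot] at h
    exact h
  have hcyc := hdet.2 1 σ a (by
    intro μ hμ
    rw [pow_one] at hμ
    obtain ⟨i, _, rfl⟩ := hζ.eq_pow_of_pow_eq_one hμ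
    rw [map_pow, ha, ← pow_mul, ← pow_mul, mul_comm])
  have hcyc' : LinearMap.det (ρ.ρ σ) - (a : k) ∈
      Ideal.span {((p ^ 1 : ℕ) : k)} := hcyc
  rw [pow_one, hpk, Ideal.span_singleton_eq_bot.mpr rfl, Ideal.mem_bot, sub_eq_zero,
    hdetx] at hcyc'
  -- conclusion
  rw [hb, Submodule.mem_span_singleton] at hl
  obtain ⟨t, rfl⟩ := hl
  rw [map_smul, ← hx, hcyc', smul_comm, Nat.cast_smul_eq_nsmul]

/-- The abstract hypotheses hold for an ordinary peu ramifié residual representation. -/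
theorem peuHyp_of {p : ℕ} (hp : p.Prime) (ρbar : ResidualGaloisRep k)
    (hdet : (GaloisRepAdic.ofResidualGaloisRep ρbar).DetIsCyclotomic p)
    {P : ValuationSubring Qb} {L : Submodule k ρbar.V}
    (hline : Fermat.Agent.S59.H649.IsOrdLineAt (GaloisRepAdic.ofResidualGaloisRep ρbar) P L)
    (hpeu : Fermat.Agent.S59.H649.IsPeuAt p ρbar P) {ζ : Qb} (hζ : IsPrimitiveRoot ζ p) :
    PeuHyp p (actOf ρbar) P ζ L.toAddSubgroup where
  tors := by
    intro x
    have hpk : ((p : ℕ) : k) = 0 := by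
      have h := hdet.1
      rw [IsLocalRing.maximalIdeal_eq_bot, Ideal.mem_bot] at h
      exact h
    rw [← Nat.cast_smul_eq_nsmul k, hpk, zero_smul]
  level := by
    obtain ⟨F, hF, hFlev⟩ := ρbar.factorsThroughFiniteLevel
    refine ⟨F, hF, fun σ hσ => ?_⟩
    ext v
    show ρbar.ρ σ v = v
    rw [hFlev σ hσ]
    rfl
  stable := fun σ hσ l hl => hline.stable σ hσ l hl
  inertia := fun σ hσ m => hline.inertia σ hσ m
  cyc := fun σ hσ a ha l hl =>
    ordLine_cyc hp (GaloisRepAdic.ofResidualGaloisRep ρbar) hdet hline hζ hσ ha hl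
  peu := fun ξ v => hpeu ζ hζ ξ v

/-- **PEU-FLAT from the leaves.** -/
theorem peuFlat_of_leaves (hDen : DenStatement) (hArch : ArchStatement)
    (hDens : DensStatement) (hLag : LagStatement) (hDual : DualStatement)
    (hKum : KumUnitStatement) (hOrth : OrthStatement) :
    Fermat.Agent.S59.H649.PeuFlatStatement := by
  intro p _ _ k _ _ ρbar hdet P hP L hline hpeu
  have hp : p.Prime := Fact.out
  haveI : NeZero ((p : ℕ) : Qb) := ⟨by exact_mod_cast hp.ne_zero⟩
  obtain ⟨ζ, hζ⟩ : ∃ ζ : Qb, IsPrimitiveRoot ζ p := by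
    obtain ⟨ζ, hζ⟩ := IsAlgClosed.exists_root (Polynomial.cyclotomic p Qb)
      (by rw [Polynomial.degree_cyclotomic]; exact_mod_cast (Nat.totient_pos.mpr hp.pos).ne')
    exact ⟨ζ, Polynomial.isRoot_cyclotomic_iff.mp hζ⟩
  have hyp := peuHyp_of hp ρbar hdet hline hpeu hζ
  haveI : Finite ρbar.V := Module.finite_of_finite k
  have hmodel : HopfModel p ρbar.V (fun σ m => actOf ρbar σ m) :=
    hopfModel_of_peuHyp hDen hArch hDens hLag hDual hKum hOrth hyp hP hζ
  refine ⟨Finite.of_surjective (IsLocalRing.residue k) IsLocalRing.residue_surjective,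
    fun I _ => ?_⟩
  exact Fermat.Agent.S59.H779.HopfModel.quotient (Fermat.Agent.S59.H659.hopfSubquot_closed p)
    (Submodule.mkQ (I • (⊤ : Submodule k ρbar.V))).toAddMonoidHom
    (Submodule.mkQ_surjective _) (fun σ x => rfl) hmodel

end Fermat.Agent.S59.H121
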