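import Fermat.Agent.S59.H121.PeuSpec

/-!
# Row S59, PEU-FLAT (helper121): the order `Λ_P` and the semilinear Galois action on functions

* `star act σ u`      : `(σ ⋆ u)(m) = σ (u (σ⁻¹ m))`, the semilinear action of `G_ℚ` on `M → ℚ̄`;
* `IsEqv`, `HasLevel` : Galois-equivariant functions, functions of finite level;
* `eFun p ζ L c ξ`    : `m ↦ ζ ^ ξ (m - c)` on `c + L`, `0` elsewhere;
* `Lam p P ζ L`       : the `O_P`-span of the `eFun`s;
* `star_eFun`, `star_mem_Lam` : `Λ_P` is stable under the decomposition group.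
-/

set_option autoImplicit false
set_option linter.unusedSectionVars false
set_option linter.unusedVariables false

open scoped Classical

noncomputable section

namespace Fermat.Agent.S59.H121

open Fermat.Agent.S19 (Qb GalQ Rl Zb)

variable {M : Type} [AddCommGroup M]

/-! ## The semilinear action on functions -/

/-- `(σ ⋆ u)(m) = σ (u (σ⁻¹ m))`. -/
def star (act : GalQ →* AddMonoid.End M) (σ : GalQ) (u : M → Qb) : M → Qb :=
  fun m => σ (u (act σ⁻¹ m))

variable (act : GalQ →* AddMonoid.End M)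

theorem star_apply (σ : GalQ) (u : M → Qb) (m : M) : star act σ u m = σ (u (act σ⁻¹ m)) := rfl

theorem act_inv_act (σ : GalQ) (m : M) : act σ⁻¹ (act σ m) = m := by
  have h : act σ⁻¹ * act σ = 1 := by rw [← map_mul, inv_mul_cancel, map_one]
  have := congrArg (fun f : AddMonoid.End M => f m) h
  simpa using this

theorem act_act_inv (σ : GalQ) (m : M) : act σ (act σ⁻¹ m) = m := by
  have := act_inv_act act σ⁻¹ m
  rwa [inv_inv] at this

theorem act_mul_apply (σ τ : GalQ) (m : M) : act (σ * τ) m = act σ (act τ m) := by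
  rw [map_mul]; rfl

theorem act_one_apply (m : M) : act 1 m = m := by
  rw [map_one]; rfl

theorem star_one (u : M → Qb) : star act 1 u = u := by
  funext m; simp [star]

theorem star_mul (σ τ : GalQ) (u : M → Qb) :
    star act (σ * τ) u = star act σ (star act τ u) := by
  funext m; simp [star, mul_inv_rev, map_mul, AlgEquiv.mul_apply]

theorem star_zero (σ : GalQ) : star act σ (0 : M → Qb) = 0 := by
  funext m; simp [star]

theorem star_add (σ : GalQ) (u w : M → Qb) :
    star act σ (u + w) = star act σ u + star act σ w := by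
  funext m; simp [star]

theorem star_sub (σ : GalQ) (u w : M → Qb) :
    star act σ (u - w) = star act σ u - star act σ w := by
  funext m; simp [star]

theorem star_smul (σ : GalQ) (a : Qb) (u : M → Qb) :
    star act σ (a • u) = σ a • star act σ u := by
  funext m; simp [star]

theorem star_sum {ι : Type*} (σ : GalQ) (s : Finset ι) (u : ι → M → Qb) :
    star act σ (∑ i ∈ s, u i) = ∑ i ∈ s, star act σ (u i) := by
  funext m
  simp only [star, Finset.sum_apply, map_sum]

theorem star_pow_succ (σ : GalQ) (n : ℕ) (u : M → Qb) :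
    star act (σ ^ (n + 1)) u = star act σ (star act (σ ^ n) u) := by
  rw [pow_succ', star_mul]

theorem star_inv_eq {σ : GalQ} {u : M → Qb} (h : star act σ u = u) : star act σ⁻¹ u = u := by
  have h1 : star act σ⁻¹ (star act σ u) = u := by rw [← star_mul, inv_mul_cancel, star_one]
  rwa [h] at h1

/-- `u` is Galois equivariant. -/
def IsEqv (u : M → Qb) : Prop := ∀ σ : GalQ, star act σ u = u

theorem isEqv_iff (u : M → Qb) : IsEqv act u ↔ ∀ (σ : GalQ) (m : M), u (act σ m) = σ (u m) := by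
  constructor
  · intro h σ m
    have := congrFun (h σ) (act σ m)
    rw [star_apply, act_inv_act] at this
    exact this.symm
  · intro h σ
    funext m
    rw [star_apply, ← h σ, act_act_inv]

/-- `u` has level `F`: it is fixed by the automorphisms fixing `F` pointwise. -/
def HasLevel (u : M → Qb) (F : IntermediateField ℚ Qb) : Prop :=
  ∀ σ : GalQ, (∀ x ∈ F, σ x = x) → star act σ u = u

theorem HasLevel.mono {u : M → Qb} {F F' : IntermediateField ℚ Qb} (h : HasLevel act u F)
    (hFF' : F ≤ F') : HasLevel act u F' :=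
  fun σ hσ => h σ fun x hx => hσ x (hFF' hx)

/-- two automorphisms with the same restriction to the level act in the same way -/
theorem HasLevel.star_congr {u : M → Qb} {F : IntermediateField ℚ Qb} (h : HasLevel act u F)
    {σ τ : GalQ} (hστ : ∀ x ∈ F, σ x = τ x) : star act σ u = star act τ u := by
  have h1 : star act (τ⁻¹ * σ) u = u := by
    apply h
    intro x hx
    show τ⁻¹ (σ x) = x
    rw [hστ x hx]
    show (τ⁻¹ * τ) x = x
    rw [inv_mul_cancel]; rfl
  have h2 : σ = τ * (τ⁻¹ * σ) := by group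
  rw [h2, star_mul, h1]

/-! ## Roots of unity with exponents in `ZMod p` -/

section Zpw

variable {p : ℕ} [NeZero p] {ζ : Qb}

theorem zpw_add (hζ : ζ ^ p = 1) (a b : ZMod p) :
    ζ ^ (a + b).val = ζ ^ a.val * ζ ^ b.val := by
  rw [ZMod.val_add, ← pow_add, ← pow_eq_pow_mod _ hζ]

theorem zpw_zero : ζ ^ (0 : ZMod p).val = 1 := by
  rw [ZMod.val_zero, pow_zero]

theorem zpw_nsmul (hζ : ζ ^ p = 1) (n : ℕ) (a : ZMod p) :
    ζ ^ (n • a).val = (ζ ^ a.val) ^ n := by
  induction n with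
  | zero => rw [zero_smul, zpw_zero, pow_zero]
  | succ n ih => rw [succ_nsmul, zpw_add hζ, ih, pow_succ]

theorem zpw_neg (hζ : ζ ^ p = 1) (a : ZMod p) : ζ ^ (-a).val * ζ ^ a.val = 1 := by
  rw [← zpw_add hζ, neg_add_cancel, zpw_zero]

theorem zpw_sub (hζ : ζ ^ p = 1) (a b : ZMod p) :
    ζ ^ (a - b).val * ζ ^ b.val = ζ ^ a.val := by
  rw [← zpw_add hζ, sub_add_cancel]

end Zpw

/-! ## The functions `e_{c,ξ}` and the order `Λ_P` -/

/-- `e_{c,ξ}`: `m ↦ ζ ^ ξ (m - c)` on the coset `c + L`, zero elsewhere. -/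
def eFun (p : ℕ) (ζ : Qb) (L : AddSubgroup M) (c : M) (ξ : M →+ ZMod p) : M → Qb :=
  fun m => if m - c ∈ L then ζ ^ (ξ (m - c)).val else 0

theorem eFun_apply (p : ℕ) (ζ : Qb) (L : AddSubgroup M) (c : M) (ξ : M →+ ZMod p) (m : M) :
    eFun p ζ L c ξ m = if m - c ∈ L then ζ ^ (ξ (m - c)).val else 0 := rfl

theorem eFun_of_mem {p : ℕ} {ζ : Qb} {L : AddSubgroup M} {c : M} {ξ : M →+ ZMod p} {m : M}
    (h : m - c ∈ L) : eFun p ζ L c ξ m = ζ ^ (ξ (m - c)).val := if_pos h

theorem eFun_of_not_mem {p : ℕ} {ζ : Qb} {L : AddSubgroup M} {c : M} {ξ : M →+ ZMod p} {m : M}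
    (h : m - c ∉ L) : eFun p ζ L c ξ m = 0 := if_neg h

/-- The `O_P`-order `Λ_P`. -/
def Lam (p : ℕ) (P : ValuationSubring Qb) (ζ : Qb) (L : AddSubgroup M) :
    Submodule P (M → Qb) :=
  Submodule.span P (Set.range fun cξ : M × (M →+ ZMod p) => eFun p ζ L cξ.1 cξ.2)

theorem eFun_mem_Lam (p : ℕ) (P : ValuationSubring Qb) (ζ : Qb) (L : AddSubgroup M) (c : M)
    (ξ : M →+ ZMod p) : eFun p ζ L c ξ ∈ Lam p P ζ L :=
  Submodule.subset_span ⟨(c, ξ), rfl⟩

/-- The generators of the order datum: the Galois-equivariant elements of `Λ_P`. -/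
def gens (p : ℕ) (P : ValuationSubring Qb) (ζ : Qb) (L : AddSubgroup M) : Set (M → Qb) :=
  {f | IsEqv act f ∧ f ∈ Lam p P ζ L}

theorem smulP_apply (P : ValuationSubring Qb) (a : P) (u : M → Qb) (m : M) :
    (a • u) m = (a : Qb) * u m := rfl

theorem smulP_eq (P : ValuationSubring Qb) (a : P) (u : M → Qb) :
    a • u = (a : Qb) • u := rfl

theorem smul_mem_of_mem {P : ValuationSubring Qb} {N : Submodule P (M → Qb)} {a : Qb}
    (ha : a ∈ P) {u : M → Qb} (hu : u ∈ N) : a • u ∈ N := by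
  have := N.smul_mem ⟨a, ha⟩ hu
  exact this

section Basic

variable {p : ℕ} {P : ValuationSubring Qb} {ζ : Qb} {L : AddSubgroup M}

theorem zeta_mem (hp : p ≠ 0) (hζ : ζ ^ p = 1) : ζ ∈ P := by
  rw [← ValuationSubring.valuation_le_one_iff]
  have h1 : P.valuation ζ ^ p = 1 := by rw [← map_pow, hζ, map_one]
  exact le_of_eq ((pow_eq_one_iff_of_nonneg zero_le hp).mp h1)

theorem eFun_apply_mem (hp : p ≠ 0) (hζ : ζ ^ p = 1) (c : M) (ξ : M →+ ZMod p) (m : M) :
    eFun p ζ L c ξ m ∈ P := by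
  rw [eFun_apply]
  split_ifs
  · exact pow_mem (zeta_mem hp hζ) _
  · exact P.zero_mem

/-- elements of `Λ_P` have values in `P` -/
theorem Lam_apply_mem (hp : p ≠ 0) (hζ : ζ ^ p = 1) {u : M → Qb} (hu : u ∈ Lam p P ζ L)
    (m : M) : u m ∈ P := by
  induction hu using Submodule.span_induction with
  | mem x hx =>
    obtain ⟨⟨c, ξ⟩, rfl⟩ := hx
    exact eFun_apply_mem hp hζ c ξ m
  | zero => exact P.zero_mem
  | add x y _ _ hx hy => exact P.add_mem _ _ hx hy
  | smul a x _ hx => exact P.mul_mem _ _ a.2 hx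

/-- the action of `σ` on `e_{c,ξ}` when `σ` stabilises `L` -/
theorem star_eFun [NeZero p] (hζ : ζ ^ p = 1) {σ : GalQ} {a : ℕ} (hσζ : σ ζ = ζ ^ a)
    (hL : ∀ l : M, act σ⁻¹ l ∈ L ↔ l ∈ L) (c : M) (ξ : M →+ ZMod p) :
    star act σ (eFun p ζ L c ξ) =
      eFun p ζ L (act σ c) (a • ξ.comp (act σ⁻¹ : M →+ M)) := by
  funext m
  have h1 : act σ⁻¹ m - c = act σ⁻¹ (m - act σ c) := by
    rw [map_sub, act_inv_act]
  rw [star_apply, eFun_apply, eFun_apply, h1, hL]
  split_ifs with h
  · rw [map_pow, hσζ]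
    show _ = ζ ^ (a • (ξ (act σ⁻¹ (m - act σ c)))).val
    rw [zpw_nsmul hζ, ← pow_mul, ← pow_mul, mul_comm]
  · exact map_zero σ

end Basic

end Fermat.Agent.S59.H121
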