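import Fermat.Agent.S59.H121.PeuLam

/-!
# Row S59, PEU-FLAT (helper121): structure of the order `Λ_P`

* `star_mem_Lam`        : `Λ_P` is stable under the decomposition group;
* `card_smul_delta_mem` : `n₀ · δ_c ∈ Λ_P`, `n₀ = #Hom(M, ℤ/p)`      (from leaf ORTH);
* `exists_pow_smul_mem` : for every function `u`, `p ^ N · u ∈ 𝔪_P Λ_P` for some `N`
                          (from leaves ORTH, ARCH);
* `exists_local_add`    : on `(m₀ + L) × (m₀' + L)` the function `(m, m') ↦ f (m + m')`,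
                          `f ∈ Λ_P`, is an `O_P`-combination of the products
                          `e_{m₀,ξ}(m) e_{m₀',ξ}(m')`.
-/

set_option autoImplicit false
set_option linter.unusedSectionVars false
set_option linter.unusedVariables false
set_option linter.style.haveILetI false

open scoped Classical Pointwise

noncomputable section

namespace Fermat.Agent.S59.H121

open Fermat.Agent.S19 (Qb GalQ Rl Zb)

variable {M : Type} [AddCommGroup M]

/-! ## Decomposition and inertia groups -/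

theorem apply_mem_of_mem_decomp121 {P : ValuationSubring Qb} {σ : GalQ}
    (hσ : σ ∈ P.decompositionSubgroup ℚ) {x : Qb} (hx : x ∈ P) : σ x ∈ P := by
  have h : σ • P = P := hσ
  have h2 : σ • x ∈ σ • P := ValuationSubring.smul_mem_pointwise_smul σ x P hx
  rw [h] at h2
  exact h2

theorem inertia_le_decomp121 {P : ValuationSubring Qb} {σ : GalQ}
    (hσ : σ ∈ P.inertiaSubgroupIn ℚ) : σ ∈ P.decompositionSubgroup ℚ := by
  obtain ⟨t, _, rfl⟩ := hσ
  exact t.2

theorem conj_mem_inertia121 {P : ValuationSubring Qb} {τ σ : GalQ}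
    (hτ : τ ∈ P.decompositionSubgroup ℚ) (hσ : σ ∈ P.inertiaSubgroupIn ℚ) :
    τ * σ * τ⁻¹ ∈ P.inertiaSubgroupIn ℚ := by
  obtain ⟨t, ht, rfl⟩ := hσ
  let d : P.decompositionSubgroup ℚ := ⟨τ, hτ⟩
  have hn : (P.inertiaSubgroup ℚ).Normal := MonoidHom.normal_ker _
  exact ⟨d * t * d⁻¹, hn.conj_mem t ht d, rfl⟩

theorem exists_pow_of_primitive {p : ℕ} {ζ : Qb} (hp : 0 < p) (hζ : IsPrimitiveRoot ζ p)
    (σ : GalQ) : ∃ a : ℕ, σ ζ = ζ ^ a := by
  have h : (σ ζ) ^ p = 1 := by rw [← map_pow, hζ.pow_eq_one, map_one]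
  haveI : NeZero p := ⟨hp.ne'⟩
  obtain ⟨i, _, hi⟩ := hζ.eq_pow_of_pow_eq_one h
  exact ⟨i, hi.symm⟩

variable {act : GalQ →* AddMonoid.End M} {p : ℕ} {P : ValuationSubring Qb} {ζ : Qb}
  {L : AddSubgroup M}

theorem PeuHyp.stable_iff (hyp : PeuHyp p act P ζ L) {σ : GalQ}
    (hσ : σ ∈ P.decompositionSubgroup ℚ) (l : M) : act σ⁻¹ l ∈ L ↔ l ∈ L := by
  constructor
  · intro h
    have := hyp.stable σ hσ _ h
    rwa [act_act_inv] at this
  · intro h
    exact hyp.stable σ⁻¹ (Subgroup.inv_mem _ hσ) l h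

/-- `Λ_P` is stable under the decomposition group. -/
theorem star_mem_Lam (hyp : PeuHyp p act P ζ L) (hp : p.Prime) (hζ : IsPrimitiveRoot ζ p)
    {σ : GalQ} (hσ : σ ∈ P.decompositionSubgroup ℚ) {u : M → Qb} (hu : u ∈ Lam p P ζ L) :
    star act σ u ∈ Lam p P ζ L := by
  haveI : NeZero p := ⟨hp.ne_zero⟩
  obtain ⟨a, ha⟩ := exists_pow_of_primitive hp.pos hζ σ
  induction hu using Submodule.span_induction with
  | mem x hx =>
    obtain ⟨⟨c, ξ⟩, rfl⟩ := hx
    show star act σ (eFun p ζ L c ξ) ∈ _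
    rw [star_eFun act hζ.pow_eq_one ha (hyp.stable_iff hσ)]
    exact eFun_mem_Lam _ _ _ _ _ _
  | zero => rw [star_zero]; exact Submodule.zero_mem _
  | add x y _ _ hx hy => rw [star_add]; exact Submodule.add_mem _ hx hy
  | smul b x _ hx =>
    rw [smulP_eq, star_smul]
    exact smul_mem_of_mem (apply_mem_of_mem_decomp121 hσ b.2) hx

/-! ## Delta functions -/

/-- the delta function at `c` -/
def delta (c : M) : M → Qb := fun m => if m = c then 1 else 0

theorem delta_self (c : M) : delta c c = 1 := if_pos rfl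

theorem delta_of_ne {c m : M} (h : m ≠ c) : delta c m = 0 := if_neg h

variable [Finite M]

instance instFiniteHom121 (p : ℕ) [NeZero p] : Finite (M →+ ZMod p) :=
  Finite.of_injective (fun f => (f : M → ZMod p)) DFunLike.coe_injective

/-- `n₀ δ_c = ∑_ξ e_{c,ξ}` -/
theorem sum_eFun_eq (hOrth : OrthStatement) (hyp : PeuHyp p act P ζ L) [Fact p.Prime]
    [Fintype (M →+ ZMod p)] (hζ : IsPrimitiveRoot ζ p) (c : M) :
    ∑ ξ : M →+ ZMod p, eFun p ζ L c ξ = (Fintype.card (M →+ ZMod p) : Qb) • delta c := by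
  funext m
  rw [Finset.sum_apply, Pi.smul_apply, smul_eq_mul]
  by_cases hm : m = c
  · subst hm
    rw [delta_self, mul_one]
    have : ∀ ξ : M →+ ZMod p, eFun p ζ L m ξ m = 1 := by
      intro ξ
      rw [eFun_of_mem (by rw [sub_self]; exact L.zero_mem), sub_self, map_zero, ZMod.val_zero,
        pow_zero]
    simp only [this, Finset.sum_const, Finset.card_univ, nsmul_eq_mul, mul_one]
  · rw [delta_of_ne hm, mul_zero]
    by_cases hL : m - c ∈ L
    · have : ∀ ξ : M →+ ZMod p, eFun p ζ L c ξ m = ζ ^ (ξ (m - c)).val :=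
        fun ξ => eFun_of_mem hL
      simp only [this]
      exact hOrth p M hyp.tors ζ hζ (m - c) (sub_ne_zero.mpr hm)
    · have : ∀ ξ : M →+ ZMod p, eFun p ζ L c ξ m = 0 := fun ξ => eFun_of_not_mem hL
      simp only [this, Finset.sum_const_zero]

theorem card_smul_delta_mem (hOrth : OrthStatement) (hyp : PeuHyp p act P ζ L) [Fact p.Prime]
    [Fintype (M →+ ZMod p)] (hζ : IsPrimitiveRoot ζ p) (c : M) :
    (Fintype.card (M →+ ZMod p) : Qb) • delta c ∈ Lam p P ζ L := by
  rw [← sum_eFun_eq hOrth hyp hζ c]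
  exact Submodule.sum_mem _ fun ξ _ => eFun_mem_Lam _ _ _ _ _ _

theorem card_hom_ne_zero [NeZero p] [Fintype (M →+ ZMod p)] :
    (Fintype.card (M →+ ZMod p) : Qb) ≠ 0 := by
  have : 0 < Fintype.card (M →+ ZMod p) := Fintype.card_pos_iff.mpr ⟨0⟩
  exact_mod_cast this.ne'

theorem mem_maximalIdeal_smul {N : Submodule P (M → Qb)} {a : Qb} (ha : a ∈ P.nonunits)
    {u : M → Qb} (hu : u ∈ N) : a • u ∈ IsLocalRing.maximalIdeal P • N := by
  obtain ⟨ha', hmem⟩ := ValuationSubring.mem_nonunits_iff_exists_mem_maximalIdeal.mp ha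
  exact Submodule.smul_mem_smul hmem hu

theorem pow_mul_mem_nonunits (hP : P.LiesOverPrime p) {N N' : ℕ} (h : N ≤ N') {y : Qb}
    (hy : (p : Qb) ^ N * y ∈ P.nonunits) : (p : Qb) ^ N' * y ∈ P.nonunits := by
  have hpP : (p : Qb) ∈ P := P.nonunits_le hP
  have : (p : Qb) ^ N' * y = (p : Qb) ^ (N' - N) * ((p : Qb) ^ N * y) := by
    rw [← mul_assoc, ← pow_add, Nat.sub_add_cancel h]
  rw [this, ValuationSubring.mem_nonunits_iff, map_mul]
  rw [ValuationSubring.mem_nonunits_iff] at hy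
  have h1 : P.valuation ((p : Qb) ^ (N' - N)) ≤ 1 :=
    (ValuationSubring.valuation_le_one_iff _ _).mpr (pow_mem hpP _)
  calc P.valuation ((p : Qb) ^ (N' - N)) * P.valuation ((p : Qb) ^ N * y)
      ≤ 1 * P.valuation ((p : Qb) ^ N * y) := mul_le_mul_left h1 _
    _ = P.valuation ((p : Qb) ^ N * y) := one_mul _
    _ < 1 := hy

/-- every function becomes an element of `𝔪_P Λ_P` after multiplication by a power of `p` -/
theorem exists_pow_smul_mem (hOrth : OrthStatement) (hArch : ArchStatement)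
    (hyp : PeuHyp p act P ζ L) [Fact p.Prime] (hP : P.LiesOverPrime p)
    (hζ : IsPrimitiveRoot ζ p) (u : M → Qb) :
    ∃ N : ℕ, ∀ N' : ℕ, N ≤ N' →
      ((p : Qb) ^ N') • u ∈ IsLocalRing.maximalIdeal P • Lam p P ζ L := by
  haveI : NeZero p := ⟨(Fact.out : p.Prime).ne_zero⟩
  cases nonempty_fintype M
  letI : Fintype (M →+ ZMod p) := Fintype.ofFinite _
  set n₀ : Qb := (Fintype.card (M →+ ZMod p) : Qb) with hn₀
  have hn₀0 : n₀ ≠ 0 := card_hom_ne_zero
  have hex : ∀ c : M, ∃ N : ℕ, (p : Qb) ^ N * (u c / n₀) ∈ P.nonunits :=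
    fun c => hArch p Fact.out P hP (u c / n₀)
  choose Nc hNc using hex
  refine ⟨Finset.univ.sup Nc, fun N' hN' => ?_⟩
  have hu : ((p : Qb) ^ N') • u =
      ∑ c : M, ((p : Qb) ^ N' * (u c / n₀)) • (n₀ • delta c) := by
    funext m
    rw [Finset.sum_apply, Finset.sum_eq_single m]
    · simp only [Pi.smul_apply, smul_eq_mul, delta_self, mul_one]
      field_simp
    · intro c _ hc
      simp only [Pi.smul_apply, smul_eq_mul, delta_of_ne (Ne.symm hc), mul_zero]
    · intro h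
      exact absurd (Finset.mem_univ m) h
  rw [hu]
  refine Submodule.sum_mem _ fun c _ => ?_
  refine mem_maximalIdeal_smul ?_ (card_smul_delta_mem hOrth hyp hζ c)
  exact pow_mul_mem_nonunits hP ((Finset.le_sup (Finset.mem_univ c)).trans hN') (hNc c)

/-! ## The local addition formula -/

/-- the products `e_{m₀,ξ}(m) e_{m₀',ξ}(m')` -/
def prodFun (p : ℕ) (ζ : Qb) (L : AddSubgroup M) (m₀ m₀' : M) (ξ : M →+ ZMod p) :
    M × M → Qb :=
  fun x => eFun p ζ L m₀ ξ x.1 * eFun p ζ L m₀' ξ x.2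

/-- the `O_P`-span of the products -/
def Wspan (p : ℕ) (P : ValuationSubring Qb) (ζ : Qb) (L : AddSubgroup M) (m₀ m₀' : M) :
    Submodule P (M × M → Qb) :=
  Submodule.span P (Set.range (prodFun p ζ L m₀ m₀'))

omit [Finite M] in
/-- **Local addition formula.** -/
theorem exists_local_add [NeZero p] (hζ : ζ ^ p = 1) {f : M → Qb} (hf : f ∈ Lam p P ζ L)
    (m₀ m₀' : M) :
    ∃ F ∈ Wspan p P ζ L m₀ m₀', ∀ m m' : M, m - m₀ ∈ L → m' - m₀' ∈ L →
      f (m + m') = F (m, m') := by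
  induction hf using Submodule.span_induction with
  | mem x hx =>
    obtain ⟨⟨c, ξ⟩, rfl⟩ := hx
    by_cases hc : m₀ + m₀' - c ∈ L
    · refine ⟨(ζ ^ (ξ (m₀ + m₀' - c)).val) • prodFun p ζ L m₀ m₀' ξ, ?_, ?_⟩
      · exact smul_mem_of_mem (pow_mem (zeta_mem (NeZero.ne p) hζ) _)
          (Submodule.subset_span ⟨ξ, rfl⟩)
      · intro m m' hm hm'
        have h1 : m + m' - c = (m - m₀) + (m' - m₀') + (m₀ + m₀' - c) := by abel
        have h2 : m + m' - c ∈ L := by
          rw [h1]; exact L.add_mem (L.add_mem hm hm') hc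
        show eFun p ζ L c ξ (m + m') = ζ ^ (ξ (m₀ + m₀' - c)).val *
          (eFun p ζ L m₀ ξ m * eFun p ζ L m₀' ξ m')
        rw [eFun_of_mem h2, eFun_of_mem hm, eFun_of_mem hm', h1, map_add, map_add,
          zpw_add hζ, zpw_add hζ]
        ring
    · refine ⟨0, Submodule.zero_mem _, ?_⟩
      intro m m' hm hm'
      have h1 : m₀ + m₀' - c = (m + m' - c) - ((m - m₀) + (m' - m₀')) := by abel
      have h2 : m + m' - c ∉ L := by
        intro h
        apply hc
        rw [h1]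
        exact L.sub_mem h (L.add_mem hm hm')
      show eFun p ζ L c ξ (m + m') = 0
      exact eFun_of_not_mem h2
  | zero => exact ⟨0, Submodule.zero_mem _, fun _ _ _ _ => rfl⟩
  | add x y _ _ hx hy =>
    obtain ⟨F, hF, hFe⟩ := hx
    obtain ⟨G, hG, hGe⟩ := hy
    refine ⟨F + G, Submodule.add_mem _ hF hG, fun m m' hm hm' => ?_⟩
    rw [Pi.add_apply, Pi.add_apply, hFe m m' hm hm', hGe m m' hm hm']
  | smul a x _ hx =>
    obtain ⟨F, hF, hFe⟩ := hx
    refine ⟨a • F, Submodule.smul_mem _ a hF, fun m m' hm hm' => ?_⟩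
    show (a : Qb) * x (m + m') = (a : Qb) * F (m, m')
    rw [hFe m m' hm hm']

end Fermat.Agent.S59.H121
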