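import Fermat.Agent.S59.H121.PeuDescG

/-!
# Row S59, PEU-FLAT (helper121): `Λ_P` is spanned by Galois-equivariant functions

* `exists_inertia_eigen` : (leaf KUM-UNIT) for all `(c, ξ)` a `P`-unit `B` with
  `γ B = ζ ^ ξ (γ c - c) · B` for all `γ ∈ I_P`;
* `eigen_*`              : `B · e_{c,ξ}` is `I_P`-invariant, of finite level, in `Λ_P`;
* `Lam_le_span_gens`     : `Λ_P = O_P · gens`  (descent `I_P → D_P → G_ℚ` + Nakayama).
-/

set_option autoImplicit false
set_option linter.unusedSectionVars false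
set_option linter.unusedVariables false
set_option linter.style.haveILetI false

open scoped Classical Pointwise

noncomputable section

namespace Fermat.Agent.S59.H121

open Fermat.Agent.S19 (Qb GalQ Rl Zb)

attribute [local instance] Fermat.Agent.S55.Bridge.isGalois_Qbar

variable {M : Type} [AddCommGroup M]
variable {act : GalQ →* AddMonoid.End M} {p : ℕ} {P : ValuationSubring Qb} {ζ : Qb}
  {L : AddSubgroup M}

/-- the cocycle `σ ↦ ζ ^ ξ (σ c - c)` -/
def kumCocycle (act : GalQ →* AddMonoid.End M) (p : ℕ) (ζ : Qb) (c : M) (ξ : M →+ ZMod p)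
    (σ : GalQ) : Qb :=
  ζ ^ (ξ (act σ c - c)).val

theorem kumCocycle_mul (hyp : PeuHyp p act P ζ L) (hp : p.Prime) (hζ : IsPrimitiveRoot ζ p)
    (c : M) (ξ : M →+ ZMod p) {σ τ : GalQ} (hσ : σ ∈ P.inertiaSubgroupIn ℚ)
    (hτ : τ ∈ P.inertiaSubgroupIn ℚ) :
    kumCocycle act p ζ c ξ (σ * τ) =
      kumCocycle act p ζ c ξ σ * σ (kumCocycle act p ζ c ξ τ) := by
  haveI : NeZero p := ⟨hp.ne_zero⟩
  obtain ⟨a, ha⟩ := exists_pow_of_primitive hp.pos hζ σ
  have hl : act τ c - c ∈ L := hyp.inertia τ hτ c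
  have h1 : act (σ * τ) c - c = a • (act τ c - c) + (act σ c - c) := by
    rw [act_mul_apply, ← hyp.cyc σ hσ a ha _ hl, map_sub]
    abel
  unfold kumCocycle
  rw [h1, map_add, map_nsmul, zpw_add hζ.pow_eq_one, zpw_nsmul hζ.pow_eq_one, map_pow, ha,
    ← pow_mul, ← pow_mul, mul_comm a, mul_comm]

/-- **(G1)** the inertia-equivariant unit Kummer generator. -/
theorem exists_inertia_eigen (hKum : KumUnitStatement) (hyp : PeuHyp p act P ζ L)
    (hp : p.Prime) (hP : P.LiesOverPrime p) (hζ : IsPrimitiveRoot ζ p) (c : M)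
    (ξ : M →+ ZMod p) :
    ∃ B : Qb, P.valuation B = 1 ∧
      ∀ γ ∈ P.inertiaSubgroupIn ℚ, γ B = ζ ^ (ξ (act γ c - c)).val * B := by
  obtain ⟨F, hF, hFlev⟩ := hyp.level
  refine hKum p hp P hP ζ hζ (kumCocycle act p ζ c ξ) ?_ ?_ ⟨F, hF, ?_⟩ (hyp.peu ξ c)
  · intro σ
    unfold kumCocycle
    rw [← pow_mul, mul_comm, pow_mul, hζ.pow_eq_one, one_pow]
  · intro σ hσ τ hτ
    exact kumCocycle_mul hyp hp hζ c ξ hσ hτ
  · intro σ τ hτ
    unfold kumCocycle
    rw [act_mul_apply, hFlev τ hτ]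
    rfl

/-- `B e_{c,ξ}` is inertia-invariant -/
theorem eigen_inertia (hyp : PeuHyp p act P ζ L) (hp : p.Prime) (hζ : IsPrimitiveRoot ζ p)
    (c : M) (ξ : M →+ ZMod p) {B : Qb}
    (hB : ∀ γ ∈ P.inertiaSubgroupIn ℚ, γ B = ζ ^ (ξ (act γ c - c)).val * B) :
    ∀ γ ∈ P.inertiaSubgroupIn ℚ, star act γ (B • eFun p ζ L c ξ) = B • eFun p ζ L c ξ := by
  haveI : NeZero p := ⟨hp.ne_zero⟩
  intro γ hγ
  obtain ⟨a, ha⟩ := exists_pow_of_primitive hp.pos hζ γ
  have hγD := inertia_le_decomp121 hγ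
  rw [star_smul, star_eFun act hζ.pow_eq_one ha (hyp.stable_iff hγD), hB γ hγ]
  funext m
  have hc : act γ c - c ∈ L := hyp.inertia γ hγ c
  rw [Pi.smul_apply, Pi.smul_apply, smul_eq_mul, smul_eq_mul, eFun_apply, eFun_apply]
  have hiff : m - act γ c ∈ L ↔ m - c ∈ L := by
    constructor
    · intro h
      have : m - c = (m - act γ c) + (act γ c - c) := by abel
      rw [this]; exact L.add_mem h hc
    · intro h
      have : m - act γ c = (m - c) - (act γ c - c) := by abel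
      rw [this]; exact L.sub_mem h hc
  by_cases hm : m - c ∈ L
  · have hm' : m - act γ c ∈ L := hiff.mpr hm
    rw [if_pos hm', if_pos hm]
    -- the character
    have hl : act γ⁻¹ (m - act γ c) ∈ L := (hyp.stable_iff hγD _).mpr hm'
    have h1 : a • act γ⁻¹ (m - act γ c) = m - act γ c := by
      rw [← hyp.cyc γ hγ a ha _ hl, act_act_inv]
    have h2 : (a • ξ.comp (act γ⁻¹ : M →+ M)) (m - act γ c) = ξ (m - act γ c) := by
      show a • ξ (act γ⁻¹ (m - act γ c)) = _
      rw [← map_nsmul, h1]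
    rw [h2]
    have h3 : m - c = (act γ c - c) + (m - act γ c) := by abel
    rw [h3, map_add, zpw_add hζ.pow_eq_one]
    ring
  · have hm' : ¬ m - act γ c ∈ L := fun h => hm (hiff.mp h)
    rw [if_neg hm', if_neg hm, mul_zero, mul_zero]

/-- `B e_{c,ξ}` has finite level -/
theorem eigen_level (hyp : PeuHyp p act P ζ L) (hp : p.Prime) (c : M) (ξ : M →+ ZMod p)
    (B : Qb) :
    ∃ F : IntermediateField ℚ Qb, FiniteDimensional ℚ F ∧
      HasLevel act (B • eFun p ζ L c ξ) F := by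
  obtain ⟨F, hF, hFlev⟩ := hyp.level
  haveI : FiniteDimensional ℚ F := hF
  haveI : FiniteDimensional ℚ (IntermediateField.adjoin ℚ {ζ}) :=
    IntermediateField.adjoin.finiteDimensional (Algebra.IsIntegral.isIntegral ζ)
  haveI : FiniteDimensional ℚ (IntermediateField.adjoin ℚ {B}) :=
    IntermediateField.adjoin.finiteDimensional (Algebra.IsIntegral.isIntegral B)
  haveI : FiniteDimensional ℚ ↥(F ⊔ IntermediateField.adjoin ℚ {ζ}) :=
    IntermediateField.finiteDimensional_sup _ _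
  refine ⟨F ⊔ IntermediateField.adjoin ℚ {ζ} ⊔ IntermediateField.adjoin ℚ {B},
    IntermediateField.finiteDimensional_sup _ _, ?_⟩
  have h1 : F ≤ F ⊔ IntermediateField.adjoin ℚ {ζ} ⊔ IntermediateField.adjoin ℚ {B} :=
    le_sup_left.trans le_sup_left
  have h2 : IntermediateField.adjoin ℚ {ζ} ≤
      F ⊔ IntermediateField.adjoin ℚ {ζ} ⊔ IntermediateField.adjoin ℚ {B} :=
    le_sup_right.trans le_sup_left
  have h3 : IntermediateField.adjoin ℚ {B} ≤
      F ⊔ IntermediateField.adjoin ℚ {ζ} ⊔ IntermediateField.adjoin ℚ {B} :=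
    le_sup_right
  intro τ hτ
  have hτF : act τ = 1 := hFlev τ fun x hx => hτ x (h1 hx)
  have hτζ : τ ζ = ζ := hτ ζ (h2 (IntermediateField.mem_adjoin_simple_self ℚ ζ))
  have hτB : τ B = B := hτ B (h3 (IntermediateField.mem_adjoin_simple_self ℚ B))
  have hτinv : act τ⁻¹ = 1 := by
    have h4 : act τ⁻¹ = act τ⁻¹ * act τ := by rw [hτF, mul_one]
    rw [← map_mul, inv_mul_cancel, map_one] at h4
    exact h4
  rw [star_smul, hτB]
  congr 1
  funext m
  rw [star_apply, hτinv]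
  show τ (eFun p ζ L c ξ m) = eFun p ζ L c ξ m
  rw [eFun_apply]
  split_ifs
  · rw [map_pow, hτζ]
  · exact map_zero τ

variable [Finite M]

/-- **(G4)** `Λ_P` is spanned over `O_P` by the equivariant elements. -/
theorem Lam_le_span_gens (hKum : KumUnitStatement) (hLag : LagStatement)
    (hDual : DualStatement) (hDens : DensStatement) (hOrth : OrthStatement)
    (hArch : ArchStatement) (hyp : PeuHyp p act P ζ L) [Fact p.Prime]
    (hP : P.LiesOverPrime p) (hζ : IsPrimitiveRoot ζ p) :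
    Lam p P ζ L ≤ Submodule.span P (gens act p P ζ L) := by
  have hp : p.Prime := Fact.out
  haveI : NeZero p := ⟨hp.ne_zero⟩
  refine Submodule.le_of_le_smul_of_le_jacobson_bot (I := IsLocalRing.maximalIdeal P)
    (Submodule.fg_span (Set.finite_range _)) (IsLocalRing.maximalIdeal_le_jacobson ⊥) ?_
  -- the `D_P`-invariant elements
  have hDstep : ∀ H : M → Qb, (∀ σ ∈ P.decompositionSubgroup ℚ, star act σ H = H) ∧
      (∃ F : IntermediateField ℚ Qb, FiniteDimensional ℚ F ∧ HasLevel act H F) ∧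
      H ∈ Lam p P ζ L →
      H ∈ Submodule.span P (gens act p P ζ L) ⊔ IsLocalRing.maximalIdeal P • Lam p P ζ L := by
    rintro H ⟨hD, hlev, hmem⟩
    obtain ⟨f, hfE, hfmem, hfH⟩ := descG hDual hDens hOrth hArch hyp hP hζ hD hlev hmem
    have h1 : H = f - (f - H) := by abel
    rw [h1]
    exact Submodule.sub_mem _ (Submodule.mem_sup_left (Submodule.subset_span ⟨hfE, hfmem⟩))
      (Submodule.mem_sup_right hfH)
  refine Submodule.span_le.mpr ?_
  rintro _ ⟨⟨c, ξ⟩, rfl⟩
  show eFun p ζ L c ξ ∈ _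
  obtain ⟨B, hBv, hB⟩ := exists_inertia_eigen hKum hyp hp hP hζ c ξ
  have hB0 : B ≠ 0 := by
    intro h0
    rw [h0, map_zero] at hBv
    exact zero_ne_one hBv
  have hBinv : B⁻¹ ∈ P := by
    rw [← ValuationSubring.valuation_le_one_iff, map_inv₀, hBv, inv_one]
  have hBP : B ∈ P := by
    rw [← ValuationSubring.valuation_le_one_iff, hBv]
  have hh : B • eFun p ζ L c ξ ∈
      Submodule.span P (gens act p P ζ L) ⊔ IsLocalRing.maximalIdeal P • Lam p P ζ L := by
    have h1 := descD hLag hyp hp hP hζ (eigen_inertia hyp hp hζ c ξ hB)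
      (eigen_level hyp hp c ξ B) (smul_mem_of_mem hBP (eFun_mem_Lam p P ζ L c ξ))
    exact (Submodule.span_le.mpr fun H hH => hDstep H hH) h1
  have h2 : eFun p ζ L c ξ = B⁻¹ • (B • eFun p ζ L c ξ) := by
    rw [smul_smul, inv_mul_cancel₀ hB0, one_smul]
  rw [h2]
  exact smul_mem_of_mem hBinv hh

theorem span_gens_le_Lam : Submodule.span P (gens act p P ζ L) ≤ Lam p P ζ L :=
  Submodule.span_le.mpr fun _ hf => hf.2

end Fermat.Agent.S59.H121
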