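import Fermat.Agent.S59.H121.PeuNak
import Fermat.Agent.S19.H255.AddMem
import Fermat.Agent.A3.H619.OrdStatement

/-!
# Row S59, PEU-FLAT (helper121): the order datum and the Hopf model

`hopfModel_of_peuHyp`: under `PeuHyp` (and the leaves) the Galois module `M` has a Hopf model
over `ℤ_(p)`: the equivariant elements of `Λ_P` form an `S19.OrderDatum`
(`S19.H255.orderDatum_of_local`, local addition law on the cosets of `L`), then `A3.H619.ord`.
-/

set_option autoImplicit false
set_option linter.unusedSectionVars false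
set_option linter.unusedVariables false
set_option linter.style.haveILetI false

open scoped Classical Pointwise

noncomputable section

namespace Fermat.Agent.S59.H121

open Fermat.Agent.S19 (Qb GalQ Rl Zb coordFunctions OrderDatum HopfModel)

variable {M : Type} [AddCommGroup M]
variable {act : GalQ →* AddMonoid.End M} {p : ℕ} {P : ValuationSubring Qb} {ζ : Qb}
  {L : AddSubgroup M}

/-- An element of `ℚ̄` lying in every valuation subring over `p` is integral over `ℤ_(p)`. -/
theorem isIntegral_of_forall_mem121 (hp : p.Prime) {x : Qb}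
    (h : ∀ A : ValuationSubring Qb, (p : Qb) ∈ A.nonunits → x ∈ A) : IsIntegral (Rl p) x := by
  by_contra hx
  have hx' : x ∉ (integralClosure (Rl p) Qb).toSubring := hx
  obtain ⟨V, hV, hxV⟩ := Subring.exists_le_valuationSubring_of_isIntegrallyClosedIn hx'
  have hV' : ∀ y : Qb, IsIntegral (Rl p) y → y ∈ V := fun y hy => hV hy
  rcases Fermat.Agent.S19.H255.eq_top_or_liesOver_of_le hp V hV' with htop | hlo
  · exact hxV (htop ▸ ValuationSubring.mem_top x)
  · exact hxV (h V hlo)

theorem mem_of_isIntegral121 (hp : p.Prime) (hP : P.LiesOverPrime p) {x : Qb}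
    (hx : IsIntegral (Rl p) x) : x ∈ P :=
  Fermat.Agent.S19.H255.mem_of_isIntegral_Rl P hp hP hx

/-! ## The generators -/

theorem gens_apply_mem (hp : p.Prime) (hζ : IsPrimitiveRoot ζ p) {f : M → Qb}
    (hf : f ∈ gens act p P ζ L) (m : M) : f m ∈ P :=
  Lam_apply_mem hp.ne_zero hζ.pow_eq_one hf.2 m

theorem gens_integral (hp : p.Prime) (hP : P.LiesOverPrime p) (hζ : IsPrimitiveRoot ζ p)
    {f : M → Qb} (hf : f ∈ gens act p P ζ L) (m : M) : IsIntegral (Rl p) (f m) := by
  apply isIntegral_of_forall_mem121 hp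
  intro A hA
  obtain ⟨ρ, hρ⟩ := Fermat.Agent.S19.H255.exists_smul_eq hp A P hA hP
  rw [← hρ, ValuationSubring.mem_pointwise_smul_iff_inv_smul_mem]
  have h1 : ρ⁻¹ • f m = f (act ρ⁻¹ m) := ((isEqv_iff act f).mp hf.1 ρ⁻¹ m).symm
  rw [h1]
  exact gens_apply_mem hp hζ hf _

theorem nonunits_add121 {a b : Qb} (ha : a ∈ P.nonunits) (hb : b ∈ P.nonunits) :
    a + b ∈ P.nonunits := by
  rw [ValuationSubring.mem_nonunits_iff] at ha hb ⊢
  exact lt_of_le_of_lt (Valuation.map_add _ _ _) (max_lt ha hb)

theorem nonunits_mul121 {a b : Qb} (ha : a ∈ P) (hb : b ∈ P.nonunits) :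
    a * b ∈ P.nonunits := by
  rw [ValuationSubring.mem_nonunits_iff] at hb ⊢
  rw [map_mul]
  have h1 : P.valuation a ≤ 1 := (ValuationSubring.valuation_le_one_iff _ _).mpr ha
  calc P.valuation a * P.valuation b ≤ 1 * P.valuation b := mul_le_mul_left h1 _
    _ = P.valuation b := one_mul _
    _ < 1 := hb

theorem not_nonunits_mul121 {a b : Qb} (ha : a ∉ P.nonunits) (hb : b ∉ P.nonunits) :
    a * b ∉ P.nonunits := by
  rw [ValuationSubring.mem_nonunits_iff, not_lt] at ha hb ⊢
  rw [map_mul]
  calc (1 : _) = 1 * 1 := (one_mul 1).symm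
    _ ≤ _ := mul_le_mul' ha hb

/-- values of elements of the span of `gens` at two points which `gens` cannot separate
modulo the maximal ideal -/
theorem span_sub_mem_nonunits {m m₀ : M}
    (h : ∀ g ∈ gens act p P ζ L, g m - g m₀ ∈ P.nonunits) {u : M → Qb}
    (hu : u ∈ Submodule.span P (gens act p P ζ L)) : u m - u m₀ ∈ P.nonunits := by
  induction hu using Submodule.span_induction with
  | mem x hx => exact h x hx
  | zero =>
    show (0 : Qb) - 0 ∈ P.nonunits
    rw [sub_zero]
    exact P.nonunits.zero_mem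
  | add x y _ _ hx hy =>
    have : (x + y) m - (x + y) m₀ = (x m - x m₀) + (y m - y m₀) := by
      simp only [Pi.add_apply]; ring
    rw [this]
    exact nonunits_add121 hx hy
  | smul a x _ hx =>
    have : (a • x) m - (a • x) m₀ = (a : Qb) * (x m - x m₀) := by
      simp only [smulP_apply]; ring
    rw [this]
    exact nonunits_mul121 a.2 hx

/-- residue discs are contained in the cosets of `L` -/
theorem sub_mem_of_disc [NeZero p] (hspan : Lam p P ζ L ≤ Submodule.span P (gens act p P ζ L))
    {m m₀ : M} (h : ∀ g ∈ gens act p P ζ L, g m - g m₀ ∈ P.nonunits) : m - m₀ ∈ L := by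
  by_contra hm
  have h1 := span_sub_mem_nonunits h (hspan (eFun_mem_Lam p P ζ L m₀ 0))
  rw [eFun_of_not_mem hm, eFun_of_mem (by rw [sub_self]; exact L.zero_mem), sub_self,
    map_zero, ZMod.val_zero, pow_zero, zero_sub] at h1
  rw [ValuationSubring.mem_nonunits_iff, Valuation.map_neg, map_one] at h1
  exact lt_irrefl _ h1

variable [Finite M]

theorem gens_separates (hOrth : OrthStatement) (hyp : PeuHyp p act P ζ L) [Fact p.Prime]
    (hζ : IsPrimitiveRoot ζ p)
    (hspan : Lam p P ζ L ≤ Submodule.span P (gens act p P ζ L)) (m m' : M)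
    (h : ∀ f ∈ gens act p P ζ L, f m = f m') : m = m' := by
  haveI : NeZero p := ⟨(Fact.out : p.Prime).ne_zero⟩
  letI : Fintype (M →+ ZMod p) := Fintype.ofFinite _
  have key : ∀ u ∈ Submodule.span P (gens act p P ζ L), u m = u m' := by
    intro u hu
    induction hu using Submodule.span_induction with
    | mem x hx => exact h x hx
    | zero => rfl
    | add x y _ _ hx hy => rw [Pi.add_apply, Pi.add_apply, hx, hy]
    | smul a x _ hx => rw [smulP_apply, smulP_apply, hx]
  have h1 := key _ (hspan (card_smul_delta_mem hOrth hyp hζ m))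
  rw [Pi.smul_apply, Pi.smul_apply, delta_self, smul_eq_mul, smul_eq_mul, mul_one] at h1
  by_contra hne
  rw [delta_of_ne (Ne.symm hne), mul_zero] at h1
  exact card_hom_ne_zero h1

/-! ## Clearing denominators -/

/-- functions on `M × M` which lie in the algebra generated by the coordinate functions after
multiplication by a `P`-unit of `ℤ̄_(p)` -/
def APset (p : ℕ) (P : ValuationSubring Qb) (S : Set (M → Qb)) : Set (M × M → Qb) :=
  {F | ∃ s : Qb, IsIntegral (Rl p) s ∧ s ∉ P.nonunits ∧
    (fun x => s * F x) ∈ Algebra.adjoin (Zb p) (coordFunctions S)}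

omit [Finite M] in
theorem APset_of_mem {S : Set (M → Qb)} (hP : P.LiesOverPrime p) {F : M × M → Qb}
    (hF : F ∈ Algebra.adjoin (Zb p) (coordFunctions S)) : F ∈ APset p P S := by
  refine ⟨1, isIntegral_one, ?_, ?_⟩
  · rw [ValuationSubring.mem_nonunits_iff, map_one]
    exact lt_irrefl _
  · simpa using hF

omit [Finite M] in
theorem APset_zero {S : Set (M → Qb)} (hP : P.LiesOverPrime p) :
    (0 : M × M → Qb) ∈ APset p P S :=
  APset_of_mem hP (Subalgebra.zero_mem _)

omit [Finite M] in
theorem APset_add {S : Set (M → Qb)} {F G : M × M → Qb} (hF : F ∈ APset p P S)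
    (hG : G ∈ APset p P S) : F + G ∈ APset p P S := by
  obtain ⟨s, hs, hsu, hsF⟩ := hF
  obtain ⟨t, ht, htu, htG⟩ := hG
  refine ⟨s * t, hs.mul ht, not_nonunits_mul121 hsu htu, ?_⟩
  have : (fun x => s * t * (F + G) x) =
      (fun _ => t) * (fun x => s * F x) + (fun _ => s) * (fun x => t * G x) := by
    funext x
    simp only [Pi.add_apply, Pi.mul_apply]
    ring
  rw [this]
  exact Subalgebra.add_mem _
    (Subalgebra.mul_mem _ (Fermat.Agent.S19.H255.const_mem_adjoin _ ht) hsF)
    (Subalgebra.mul_mem _ (Fermat.Agent.S19.H255.const_mem_adjoin _ hs) htG)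

omit [Finite M] in
theorem APset_mul {S : Set (M → Qb)} {F G : M × M → Qb} (hF : F ∈ APset p P S)
    (hG : G ∈ APset p P S) : F * G ∈ APset p P S := by
  obtain ⟨s, hs, hsu, hsF⟩ := hF
  obtain ⟨t, ht, htu, htG⟩ := hG
  refine ⟨s * t, hs.mul ht, not_nonunits_mul121 hsu htu, ?_⟩
  have : (fun x => s * t * (F * G) x) = (fun x => s * F x) * (fun x => t * G x) := by
    funext x
    simp only [Pi.mul_apply]
    ring
  rw [this]
  exact Subalgebra.mul_mem _ hsF htG

omit [Finite M] in
theorem APset_smul (hDen : DenStatement) (hp : p.Prime) (hP : P.LiesOverPrime p)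
    {S : Set (M → Qb)} {c : Qb} (hc : c ∈ P) {F : M × M → Qb} (hF : F ∈ APset p P S) :
    c • F ∈ APset p P S := by
  obtain ⟨s, hs, hsu, hsF⟩ := hF
  obtain ⟨t, ht, htu, htc⟩ := hDen p hp P hP c hc
  refine ⟨t * s, ht.mul hs, not_nonunits_mul121 htu hsu, ?_⟩
  have : (fun x => t * s * (c • F) x) = (fun _ => t * c) * (fun x => s * F x) := by
    funext x
    simp only [Pi.smul_apply, Pi.mul_apply, smul_eq_mul]
    ring
  rw [this]
  exact Subalgebra.mul_mem _ (Fermat.Agent.S19.H255.const_mem_adjoin _ htc) hsF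

omit [Finite M] in
theorem APset_comp_fst (hDen : DenStatement) (hp : p.Prime) (hP : P.LiesOverPrime p)
    {S : Set (M → Qb)} {u : M → Qb} (hu : u ∈ Submodule.span P S) :
    (fun x : M × M => u x.1) ∈ APset p P S := by
  induction hu using Submodule.span_induction with
  | mem g hg => exact APset_of_mem hP (Algebra.subset_adjoin (Or.inl ⟨g, hg, rfl⟩))
  | zero => exact APset_zero hP
  | add x y _ _ hx hy => exact APset_add hx hy
  | smul a x _ hx => exact APset_smul hDen hp hP a.2 hx

omit [Finite M] in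
theorem APset_comp_snd (hDen : DenStatement) (hp : p.Prime) (hP : P.LiesOverPrime p)
    {S : Set (M → Qb)} {u : M → Qb} (hu : u ∈ Submodule.span P S) :
    (fun x : M × M => u x.2) ∈ APset p P S := by
  induction hu using Submodule.span_induction with
  | mem g hg => exact APset_of_mem hP (Algebra.subset_adjoin (Or.inr ⟨g, hg, rfl⟩))
  | zero => exact APset_zero hP
  | add x y _ _ hx hy => exact APset_add hx hy
  | smul a x _ hx => exact APset_smul hDen hp hP a.2 hx

omit [Finite M] in
theorem Wspan_le_APset (hDen : DenStatement) (hp : p.Prime) (hP : P.LiesOverPrime p)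
    (hspan : Lam p P ζ L ≤ Submodule.span P (gens act p P ζ L)) (m₀ m₀' : M)
    {F : M × M → Qb} (hF : F ∈ Wspan p P ζ L m₀ m₀') :
    F ∈ APset p P (gens act p P ζ L) := by
  induction hF using Submodule.span_induction with
  | mem G hG =>
    obtain ⟨ξ, rfl⟩ := hG
    exact APset_mul
      (APset_comp_fst hDen hp hP (hspan (eFun_mem_Lam p P ζ L m₀ ξ)))
      (APset_comp_snd hDen hp hP (hspan (eFun_mem_Lam p P ζ L m₀' ξ)))
  | zero => exact APset_zero hP
  | add x y _ _ hx hy => exact APset_add hx hy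
  | smul a x _ hx => exact APset_smul hDen hp hP a.2 hx

/-! ## The order datum -/

/-- **(G5)** the order datum. -/
theorem orderDatum_of_peuHyp (hDen : DenStatement) (hOrth : OrthStatement)
    (hyp : PeuHyp p act P ζ L) [Fact p.Prime] (hP : P.LiesOverPrime p)
    (hζ : IsPrimitiveRoot ζ p)
    (hspan : Lam p P ζ L ≤ Submodule.span P (gens act p P ζ L)) :
    Nonempty (OrderDatum p M (fun σ m => act σ m)) := by
  have hp : p.Prime := Fact.out
  haveI : NeZero p := ⟨hp.ne_zero⟩
  refine ⟨Fermat.Agent.S19.H255.orderDatum_of_local hp (fun σ m => act σ m)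
    (fun σ a b => map_add (act σ) a b) (gens act p P ζ L) ?_ ?_ ?_ P hP ?_⟩
  · intro f hf σ m
    exact (isEqv_iff act f).mp hf.1 σ m
  · intro f hf m
    exact gens_integral hp hP hζ hf m
  · exact gens_separates hOrth hyp hζ hspan
  · intro f hf m₀ m₀'
    obtain ⟨F, hFW, hFe⟩ := exists_local_add hζ.pow_eq_one hf.2 m₀ m₀'
    obtain ⟨s, hs, hsu, hsF⟩ := Wspan_le_APset hDen hp hP hspan m₀ m₀' hFW
    refine ⟨fun x => s * F x, hsF, fun _ => s,
      Fermat.Agent.S19.H255.const_mem_adjoin _ hs, hsu, ?_⟩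
    intro m m' hm hm'
    show s * f (m + m') = s * F (m, m')
    rw [hFe m m' (sub_mem_of_disc hspan hm) (sub_mem_of_disc hspan hm')]

/-- **PEU-FLAT, abstract form.** -/
theorem hopfModel_of_peuHyp (hDen : DenStatement) (hArch : ArchStatement)
    (hDens : DensStatement) (hLag : LagStatement) (hDual : DualStatement)
    (hKum : KumUnitStatement) (hOrth : OrthStatement)
    (hyp : PeuHyp p act P ζ L) [Fact p.Prime] (hP : P.LiesOverPrime p)
    (hζ : IsPrimitiveRoot ζ p) : HopfModel p M (fun σ m => act σ m) :=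
  Fermat.Agent.A3.H619.ord p M _
    (orderDatum_of_peuHyp hDen hOrth hyp hP hζ
      (Lam_le_span_gens hKum hLag hDual hDens hOrth hArch hyp hP hζ))

end Fermat.Agent.S59.H121
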