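import Mathlib
import Fermat.Agent.S19.Defs
import Fermat.Agent.S59.H649.StrictSpec

/-!
# Row S59, cell TW, leaf TW-STRICT (b) PEU-FLAT — frozen sub-interface (owner helper121)

Target: `Fermat.Agent.S59.H649.PeuFlatStatement` (ordinary + cyclotomic determinant + peu ramifié
at one place `P ∣ p` ⟹ flat at `p`).

Route (board `coord/S59-PEUFLAT-helper121.md`): `M = V̄`, `L̄ ⊂ M` the ordinary line.

* `Λ_P ⊂ (M → ℚ̄)` the `O_P`-span of the functions `e_{c,ξ}` (`m ↦ ζ ^ ξ (m - c)` on `c + L̄`,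
  `0` elsewhere); `gens` = the `G_ℚ`-equivariant elements of `Λ_P`;
* KUM-UNIT + LAG + DUAL + DENS + ARCH + ORTH + Nakayama ⟹ `Λ_P = O_P · gens`;
* DEN + `S19.H255.orderDatum_of_local` + `A3.H619.ord` ⟹ Hopf model.

This file: the abstract hypothesis package `PeuHyp` and the seven leaf statements (all
Mathlib + Prelude vocabulary, no dependence on each other).  Definitions only.
-/

set_option autoImplicit false

namespace Fermat.Agent.S59.H121

open Fermat.Agent.S19 (Qb GalQ Rl Zb)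

/-- The abstract hypotheses of PEU-FLAT on a finite Galois module `M` killed by `p` with a
subgroup `L` ("ordinary line") at a place `P ∣ p`. -/
structure PeuHyp (p : ℕ) {M : Type} [AddCommGroup M] (act : GalQ →* AddMonoid.End M)
    (P : ValuationSubring Qb) (ζ : Qb) (L : AddSubgroup M) : Prop where
  tors : ∀ x : M, p • x = 0
  level : ∃ F : IntermediateField ℚ Qb, FiniteDimensional ℚ F ∧
    ∀ σ : GalQ, (∀ x ∈ F, σ x = x) → act σ = 1
  stable : ∀ σ ∈ P.decompositionSubgroup ℚ, ∀ l ∈ L, act σ l ∈ L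
  inertia : ∀ σ ∈ P.inertiaSubgroupIn ℚ, ∀ m : M, act σ m - m ∈ L
  cyc : ∀ σ ∈ P.inertiaSubgroupIn ℚ, ∀ a : ℕ, σ ζ = ζ ^ a → ∀ l ∈ L, act σ l = a • l
  peu : ∀ (ξ : M →+ ZMod p) (v : M), ∃ B : Qb, P.valuation B = 1 ∧
    ∀ σ ∈ P.inertiaSubgroupIn ℚ, σ ζ = ζ → σ B = ζ ^ (ξ (act σ v - v)).val * B

/-- **Leaf DEN**: `O_P` is the localisation of `ℤ̄_(p)`: every element of `P` is a quotient
`b / s` of elements integral over `ℤ_(p)` with `s` a `P`-unit.
(Proof: primitive integer polynomial `∑ a_i X^i` killing `c`, `k` the last index with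
`p ∤ a_k`, `s = ∑_{i ≥ k} a_i c^(i-k)`; check `s`, `s c` in every valuation ring over `p`, use
`Fermat.Agent.S59.H382.isIntegral_of_forall_mem`.) -/
def DenStatement : Prop :=
  ∀ p : ℕ, p.Prime → ∀ P : ValuationSubring Qb, P.LiesOverPrime p → ∀ c ∈ P,
    ∃ s : Qb, IsIntegral (Rl p) s ∧ s ∉ P.nonunits ∧ IsIntegral (Rl p) (s * c)

/-- **Leaf ARCH**: the valuation of `P` has rank one: `p ^ N * y` is in the maximal ideal for
large `N`. -/
def ArchStatement : Prop :=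
  ∀ p : ℕ, p.Prime → ∀ P : ValuationSubring Qb, P.LiesOverPrime p → ∀ y : Qb,
    ∃ N : ℕ, (p : Qb) ^ N * y ∈ P.nonunits

/-- **Leaf DENS**: `ℚ` is `p`-adically dense in the decomposition field: an element fixed by
`D_P` is congruent to a rational number modulo `p ^ N`.
(Proof: Frobenius `φ ∈ D_P` (`Lib.Cheb.H643.exists_isFrobeniusAt`) gives `x̄ ^ p = x̄`, so
`x ≡ a mod 𝔪_P`, `a ∈ {0..p-1}`; `S56.H460.unrVal`: `x - a = p ^ k · unit`; induction on `N`.) -/
def DensStatement : Prop :=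
  ∀ p : ℕ, p.Prime → ∀ P : ValuationSubring Qb, P.LiesOverPrime p → ∀ x : Qb,
    (∀ σ ∈ P.decompositionSubgroup ℚ, σ x = x) → ∀ N : ℕ,
      ∃ q : ℚ, P.valuation (x - (q : Qb)) ≤ P.valuation (p : Qb) ^ N

/-- **Leaf LAG**: unramified Lagrange interpolation.  For a Frobenius `φ` at `P` and `n ≥ 1`
there are an inertia-fixed `z ∈ P` with `φ ^ n z = z` and coefficients `c_j ∈ P` with
`∑_j c_j (φ ^ i z) ^ j = δ_{i,0}` for `i < n`.
(`z` a primitive `(p ^ n - 1)`-th root of unity: `φ z = z ^ p`, the `z ^ (p ^ i)`, `i < n`, are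
pairwise incongruent mod `𝔪_P`; `∑ c_j X ^ j = ∏_{0 < i < n} (X - x_i) / (x_0 - x_i)`.) -/
def LagStatement : Prop :=
  ∀ p : ℕ, p.Prime → ∀ P : ValuationSubring Qb, P.LiesOverPrime p →
    ∀ φ : GalQ, P.IsFrobeniusAt φ p → ∀ n : ℕ, 0 < n →
      ∃ (z : Qb) (c : Fin n → Qb), z ∈ P ∧ (∀ γ ∈ P.inertiaSubgroupIn ℚ, γ z = z) ∧
        (φ ^ n) z = z ∧ (∀ j, c j ∈ P) ∧
        ∀ i : Fin n, ∑ j : Fin n, c j * ((φ ^ (i : ℕ)) z) ^ (j : ℕ) =
          if (i : ℕ) = 0 then 1 else 0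

open scoped Classical in
/-- **Leaf DUAL**: trace-dual families in a finite Galois extension (Dedekind independence of
the automorphisms). -/
def DualStatement : Prop :=
  ∀ (F : IntermediateField ℚ Qb) [FiniteDimensional ℚ F] [IsGalois ℚ F],
    ∃ (r : ℕ) (α β : Fin r → F), ∀ γ : F ≃ₐ[ℚ] F,
      ∑ j : Fin r, β j * γ (α j) = if γ = 1 then 1 else 0

/-- **Leaf KUM-UNIT**: a `μ_p`-valued cocycle `e` of finite level on the inertia group `I_P`
whose restriction to `{σ ∈ I_P : σ ζ = ζ}` is the Kummer character of a `P`-unit is the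
coboundary of a `P`-unit on all of `I_P`.
(Hilbert 90 `S56.H734.hilbert90_of_level` over the inertia field
`A2.IF.H429.inertiaField P` (`exists_inertia_apply_eq`) gives `B'`; `B' ^ p` and
`∏_{a} γ_a (B' / B₁)` (`γ_a ∈ I_P` representatives of the image of `I_P → (ℤ/p)ˣ`) are
inertia-fixed, so by `S56.H460.unrVal` `v(B') ^ p` and `v(B') ^ r`, `r ∣ p - 1`, are powers of
`v(p)`; Bézout.) -/
def KumUnitStatement : Prop :=
  ∀ p : ℕ, p.Prime → ∀ P : ValuationSubring Qb, P.LiesOverPrime p →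
    ∀ ζ : Qb, IsPrimitiveRoot ζ p → ∀ e : GalQ → Qb,
      (∀ σ, e σ ^ p = 1) →
      (∀ σ ∈ P.inertiaSubgroupIn ℚ, ∀ τ ∈ P.inertiaSubgroupIn ℚ, e (σ * τ) = e σ * σ (e τ)) →
      (∃ F : IntermediateField ℚ Qb, FiniteDimensional ℚ F ∧
        ∀ σ τ : GalQ, (∀ x ∈ F, τ x = x) → e (σ * τ) = e σ) →
      (∃ B₁ : Qb, P.valuation B₁ = 1 ∧
        ∀ σ ∈ P.inertiaSubgroupIn ℚ, σ ζ = ζ → σ B₁ = e σ * B₁) →
      ∃ B : Qb, P.valuation B = 1 ∧ ∀ σ ∈ P.inertiaSubgroupIn ℚ, σ B = e σ * B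

/-- **Leaf ORTH**: orthogonality of the additive characters of an elementary abelian `p`-group. -/
def OrthStatement : Prop :=
  ∀ (p : ℕ) [Fact p.Prime] (M : Type) [AddCommGroup M] [Finite M] [Fintype (M →+ ZMod p)],
    (∀ x : M, p • x = 0) → ∀ ζ : Qb, IsPrimitiveRoot ζ p → ∀ x : M, x ≠ 0 →
      ∑ ξ : M →+ ZMod p, ζ ^ (ξ x).val = 0

end Fermat.Agent.S59.H121
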